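import Mathlib
import Fermat.Agent.FF.Principal
import Fermat.Prelude.Def_AlgebraicCurve_Correspondence

/-!
# Relative fundamental identity and norm formula

For `K` algebraically closed of characteristic zero and a finite extension `F'/F` of function
fields of one variable over `K` we prove the prelude statements `SumRamificationInertia`,
`FundamentalIdentity` and `Divisor.PushforwardNormFormula`.
-/

set_option autoImplicit false
set_option linter.unusedSectionVars false
set_option linter.style.haveILetI false

noncomputable section

open AlgebraicCurve IsDedekindDomain WithZero IsLocalRing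

namespace Fermat.Agent.Jan.RelFundamental

open Fermat.FF

section FF1Transfer

variable {K F F' : Type*} [Field K] [Field F] [Field F'] [Algebra K F] [Algebra K F']
  [Algebra F F'] [IsScalarTower K F F']

open IntermediateField in
variable (K F F') in
theorem isFF1_of_finite [h : IsFF1 K F] [FiniteDimensional F F'] : IsFF1 K F' := by
  obtain ⟨x, hx, hfin⟩ := h.exists_finite
  refine ⟨algebraMap F F' x, ?_, ?_⟩
  · intro halg
    exact hx ((isAlgebraic_algebraMap_iff (algebraMap F F').injective).mp halg)
  · let φ : F →ₐ[K] F' := IsScalarTower.toAlgHom K F F'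
    have hmap : K⟮x⟯.map φ = K⟮algebraMap F F' x⟯ := by
      rw [IntermediateField.adjoin_map, Set.image_singleton]
      rfl
    have hmem : ∀ z : K⟮x⟯, algebraMap F F' z ∈ K⟮algebraMap F F' x⟯ := by
      intro z
      rw [← hmap]
      exact ⟨z, z.2, rfl⟩
    let ψ : K⟮x⟯ →+* K⟮algebraMap F F' x⟯ :=
      ((algebraMap F F').comp (algebraMap K⟮x⟯ F)).codRestrict _ hmem
    let : Algebra K⟮x⟯ K⟮algebraMap F F' x⟯ := ψ.toAlgebra
    have : IsScalarTower K⟮x⟯ K⟮algebraMap F F' x⟯ F' := IsScalarTower.of_algebraMap_eq fun z => by
      rw [IsScalarTower.algebraMap_apply K⟮x⟯ F F']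
      rfl
    have : FiniteDimensional K⟮x⟯ F' := Module.Finite.trans (R := K⟮x⟯) F F'
    exact Module.Finite.of_restrictScalars_finite K⟮x⟯ K⟮algebraMap F F' x⟯ F'

end FF1Transfer

section Norm

variable {K F : Type*} [Field K] [Field F] [Algebra K F]
variable {R : Type*} [CommRing R] [IsDomain R] [IsDiscreteValuationRing R] [Algebra K R]
  [Algebra R F] [IsScalarTower K R F]
variable (k : Type*) [Field k] [Algebra R k] [IsFractionRing R k] [Algebra k F]
  [IsScalarTower R k F] [FiniteDimensional k F] [CharZero k]

include k

theorem multiplicity_relNorm [IsAlgClosed K] (ϖ : R) (hϖ : Irreducible ϖ)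
    (hres : ∀ r : R, ∃ c : K, ϖ ∣ r - algebraMap K R c) :
    haveI : FaithfulSMul R F := faithful_of_tower k
    haveI : IsDedekindDomain (integralClosure R F) := integralClosure.isDedekindDomain R k F
    haveI : Module.Finite R (integralClosure R F) := IsIntegralClosure.finite R k F _
    haveI : Module.IsTorsionFree R (integralClosure R F) := inferInstance
    ∀ I : Ideal (integralClosure R F), I ≠ 0 →
      ∑ᶠ P : (Ideal.span {ϖ}).primesOver (integralClosure R F), multiplicity P.1 I =
        multiplicity (Ideal.span {ϖ}) (Ideal.relNorm R I) := by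
  classical
  have i1 : FaithfulSMul R F := faithful_of_tower k
  have i2 : IsDedekindDomain (integralClosure R F) := integralClosure.isDedekindDomain R k F
  have i3 : IsFractionRing (integralClosure R F) F :=
    integralClosure.isFractionRing_of_finite_extension k F
  have i4 : Module.Finite R (integralClosure R F) := IsIntegralClosure.finite R k F _
  have i5 : Module.IsTorsionFree R (integralClosure R F) := inferInstance
  have i6 : (Ideal.span {ϖ}).IsMaximal := PrincipalIdealRing.isMaximal_of_irreducible hϖ
  have i7 : Finite ((Ideal.span {ϖ}).primesOver (integralClosure R F)) :=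
    Algebra.QuasiFinite.finite_primesOver _
  let i8 : Fintype ((Ideal.span {ϖ}).primesOver (integralClosure R F)) := Fintype.ofFinite _
  have i9 : CharZero R := ⟨fun a b h => by
    have h1 := congrArg (algebraMap R k) h
    rw [map_natCast, map_natCast] at h1
    exact Nat.cast_injective h1⟩
  have hpprime : Prime (Ideal.span {ϖ}) := by
    refine Ideal.prime_of_isPrime ?_ i6.isPrime
    rw [Ne, Ideal.span_singleton_eq_bot]
    exact hϖ.ne_zero
  have hPprime : ∀ P : (Ideal.span {ϖ}).primesOver (integralClosure R F), Prime P.1 := by
    intro P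
    have h1 := P.2.1
    have h2 := P.2.2
    exact Ideal.prime_of_isPrime (Ideal.ne_bot_of_liesOver_of_ne_bot hpprime.ne_zero P.1) h1
  intro I
  rw [finsum_eq_sum_of_fintype]
  induction I using UniqueFactorizationMonoid.induction_on_prime with
  | h₁ => intro h; exact absurd rfl h
  | h₂ I hI =>
    intro _
    have hI1 : I = 1 := by
      rw [Ideal.isUnit_iff] at hI
      rw [hI, Ideal.one_eq_top]
    rw [hI1, map_one, multiplicity_eq_zero.mpr (fun h => hpprime.not_isUnit (isUnit_of_dvd_one h))]
    refine Finset.sum_eq_zero fun P _ => ?_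
    exact multiplicity_eq_zero.mpr (fun h => (hPprime P).not_isUnit (isUnit_of_dvd_one h))
  | h₃ I p hI hp ih =>
    intro _
    have hpP : p.IsPrime := Ideal.isPrime_of_prime hp
    have hpmax : p.IsMaximal := hpP.isMaximal hp.ne_zero
    have hover : p.LiesOver (Ideal.span {ϖ}) := by
      have h1 : (p.under R).IsMaximal := inferInstance
      refine ⟨?_⟩
      rw [IsLocalRing.eq_maximalIdeal h1, IsLocalRing.eq_maximalIdeal i6]
    let p' : (Ideal.span {ϖ}).primesOver (integralClosure R F) := ⟨p, hpP, hover⟩
    have hnorm : Ideal.relNorm R p = Ideal.span {ϖ} := by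
      have : PerfectField (FractionRing R) := by
        have : CharZero (FractionRing R) := inferInstance
        infer_instance
      rw [Ideal.relNorm_eq_pow_of_isMaximal p (Ideal.span {ϖ})]
      have := inertiaDeg_eq_one k ϖ hϖ hres p'
      rw [show p.inertiaDeg R = 1 from this, pow_one]
    have hnI : Ideal.relNorm R I ≠ 0 := by
      intro h
      exact hI (Ideal.relNorm_eq_bot_iff.mp h)
    rw [map_mul, hnorm, multiplicity_mul hpprime
      (FiniteMultiplicity.of_prime_left hpprime (mul_ne_zero hpprime.ne_zero hnI)), ← ih hI,
      multiplicity_self]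
    have hsum : ∀ P : (Ideal.span {ϖ}).primesOver (integralClosure R F),
        multiplicity P.1 (p * I) = (if P = p' then 1 else 0) + multiplicity P.1 I := by
      intro P
      rw [multiplicity_mul (hPprime P)
        (FiniteMultiplicity.of_prime_left (hPprime P) (mul_ne_zero hp.ne_zero hI))]
      congr 1
      split_ifs with h
      · rw [h]
        exact multiplicity_self ..
      · refine multiplicity_eq_zero.mpr fun hd => h ?_
        apply Subtype.ext
        have h1 : p ≤ P.1 := Ideal.dvd_iff_le.mp hd
        have h2 := P.2.1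
        exact (hpmax.eq_of_le h2.ne_top h1).symm
    simp_rw [hsum]
    rw [Finset.sum_add_distrib]
    congr 1
    simp

end Norm

section PlaceLevel

variable {K F F' : Type*} [Field K] [Field F] [Field F'] [Algebra K F] [Algebra K F']
  [Algebra F F'] [IsScalarTower K F F']

theorem ord_eq_multiplicity (v : Place K F) {r : v.toValuationSubring} (hr : r ≠ 0) :
    v.ord (r : F) = multiplicity (maximalIdeal v.toValuationSubring) (Ideal.span {r}) := by
  have h := ord_ofHeightOneSpectrum_algebraMap (K := K) (F := F) v.heightOneSpectrum hr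
  have hr' : algebraMap v.toValuationSubring F r ≠ 0 := by
    rwa [Ne, FaithfulSMul.algebraMap_eq_zero_iff]
  rw [ord_ofHeightOneSpectrum v.heightOneSpectrum hr'] at h
  exact h

variable [IsAlgClosed K] [CharZero K] [IsFF1 K F] [FiniteDimensional F F']

theorem place_inertiaDeg_eq_one (w : Place K F') : w.inertiaDeg F = 1 := by
  have := isFF1_of_finite K F F'
  have h := w.deg_restrict_mul_inertiaDeg (F := F)
  rw [deg_eq_one, deg_eq_one, one_mul] at h
  exact h

/-- The algebra structure of `F'` over the valuation ring of a place of `F`. -/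
abbrev valAlg (F' : Type*) [Field F'] [Algebra F F'] (v : Place K F) :
    Algebra v.toValuationSubring F' :=
  ((algebraMap F F').comp (algebraMap v.toValuationSubring F)).toAlgebra

theorem fiberSet_eq (v : Place K F) (ϖ : v.toValuationSubring) (hϖ : Irreducible ϖ) :
    letI := valAlg F' v
    fiberSet K F' ϖ = {w | w.restrict F = v} := by
  letI := valAlg F' v
  ext w
  constructor
  · rintro ⟨h1, -⟩
    refine (place_eq_of_le ?_).symm
    intro x hx
    exact h1 ⟨x, hx⟩
  · intro (hw : w.restrict F = v)
    refine ⟨fun r => ?_, ?_⟩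
    · have h1 : (r : F) ∈ (w.restrict F).toValuationSubring := by
        rw [hw]; exact r.2
      exact h1
    · rw [val_lt_one_iff]
      right
      have h1 := w.ord_restrict (F := F) (ϖ : F)
      rw [hw, v.ord_coe_irreducible hϖ, mul_one] at h1
      have h2 : (0 : ℤ) < w.ramificationIndex F := by
        have := w.ramificationIndex_pos (F := F)
        omega
      rw [← h1] at h2
      exact h2

theorem exists_const_dvd (v : Place K F) (ϖ : v.toValuationSubring) (hϖ : Irreducible ϖ)
    (r : v.toValuationSubring) : ∃ c : K, ϖ ∣ r - algebraMap K v.toValuationSubring c := by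
  obtain ⟨c, hc⟩ := exists_const_of_mem v r.2
  refine ⟨c, ?_⟩
  have h1 : r - algebraMap K v.toValuationSubring c ∈ maximalIdeal v.toValuationSubring := by
    rw [mem_maximalIdeal_iff]
    exact hc
  rw [hϖ.maximalIdeal_eq, Ideal.mem_span_singleton] at h1
  exact h1

variable [HasPrincipalDivisors K F']

theorem sum_ramificationIndex (v : Place K F) :
    ∑ w ∈ v.fiber F', (w.ramificationIndex F : ℤ) = Module.finrank F F' := by
  letI := valAlg F' v
  haveI : IsScalarTower v.toValuationSubring F F' := IsScalarTower.of_algebraMap_eq fun _ => rfl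
  haveI : IsScalarTower K v.toValuationSubring F' := IsScalarTower.of_algebraMap_eq fun c => by
    rw [IsScalarTower.algebraMap_apply v.toValuationSubring F F']
    rw [← IsScalarTower.algebraMap_apply K v.toValuationSubring F, ← IsScalarTower.algebraMap_apply]
  haveI : CharZero F := charZero_of_injective_algebraMap (algebraMap K F).injective
  obtain ⟨ϖ, hϖ⟩ := IsDiscreteValuationRing.exists_irreducible v.toValuationSubring
  rw [← sum_ord_fiber (K := K) (F := F') F ϖ hϖ (exists_const_dvd v ϖ hϖ)]
  refine Finset.sum_congr ?_ ?_
  · ext w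
    rw [Place.mem_fiber, Set.Finite.mem_toFinset, fiberSet_eq v ϖ hϖ, Set.mem_ofPred_eq]
  · intro w hw
    rw [Set.Finite.mem_toFinset, fiberSet_eq v ϖ hϖ, Set.mem_ofPred_eq] at hw
    have h1 := w.ord_restrict (F := F) (ϖ : F)
    rw [hw, v.ord_coe_irreducible hϖ, mul_one] at h1
    rw [← h1]
    rfl

theorem sumRamificationInertia : SumRamificationInertia K F F' where
  sum_ramificationIndex_mul_inertiaDeg v := by
    rw [← sum_ramificationIndex v]
    refine Finset.sum_congr rfl fun w _ => ?_
    rw [place_inertiaDeg_eq_one, Nat.cast_one, mul_one]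

theorem fundamentalIdentity : FundamentalIdentity K F F' :=
  haveI : SumRamificationInertia K F F' := sumRamificationInertia
  inferInstance

theorem sum_ord_eq_ord_norm (v : Place K F) {f : F'} (hf : f ≠ 0) :
    ∑ w ∈ v.fiber F', w.ord f = v.ord (Algebra.norm F f) := by
  classical
  letI := valAlg F' v
  haveI : IsScalarTower v.toValuationSubring F F' := IsScalarTower.of_algebraMap_eq fun _ => rfl
  haveI : IsScalarTower K v.toValuationSubring F' := IsScalarTower.of_algebraMap_eq fun c => by
    rw [IsScalarTower.algebraMap_apply v.toValuationSubring F F']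
    rw [← IsScalarTower.algebraMap_apply K v.toValuationSubring F, ← IsScalarTower.algebraMap_apply]
  haveI : CharZero F := charZero_of_injective_algebraMap (algebraMap K F).injective
  obtain ⟨ϖ, hϖ⟩ := IsDiscreteValuationRing.exists_irreducible v.toValuationSubring
  have i1 : FaithfulSMul v.toValuationSubring F' := faithful_of_tower F
  have i2 : IsDedekindDomain (integralClosure v.toValuationSubring F') := integralClosure.isDedekindDomain v.toValuationSubring F F'
  have i3 : IsFractionRing (integralClosure v.toValuationSubring F') F' :=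
    integralClosure.isFractionRing_of_finite_extension F F'
  have i4 : Module.Finite v.toValuationSubring (integralClosure v.toValuationSubring F') := IsIntegralClosure.finite v.toValuationSubring F F' _
  have i5 : Module.IsTorsionFree v.toValuationSubring (integralClosure v.toValuationSubring F') := inferInstance
  have i7 : Finite ((Ideal.span {ϖ}).primesOver (integralClosure v.toValuationSubring F')) :=
    Algebra.QuasiFinite.finite_primesOver _
  -- the case of an integral element
  have key : ∀ a : integralClosure v.toValuationSubring F', a ≠ 0 →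
      ∑ w ∈ v.fiber F', w.ord (a : F') = v.ord (Algebra.norm F (a : F')) := by
    intro a ha
    have h1 := multiplicity_relNorm (K := K) (F := F') F ϖ hϖ (exists_const_dvd v ϖ hϖ)
      (Ideal.span {a}) (by simpa using ha)
    rw [Ideal.relNorm_singleton] at h1
    have hnorm : ((Algebra.intNorm v.toValuationSubring (integralClosure v.toValuationSubring F') a : v.toValuationSubring) : F) =
        Algebra.norm F (a : F') :=
      Algebra.algebraMap_intNorm (A := v.toValuationSubring) (K := F) (L := F') (B := integralClosure v.toValuationSubring F') a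
    have ha' : (a : F') ≠ 0 := by simpa using ha
    have hn0 : Algebra.intNorm v.toValuationSubring (integralClosure v.toValuationSubring F') a ≠ 0 := by
      intro h0
      rw [h0] at hnorm
      exact (Algebra.norm_ne_zero_iff.mpr ha') (hnorm.symm.trans (by simp))
    have h2 := ord_eq_multiplicity v hn0
    rw [hnorm, hϖ.maximalIdeal_eq, ← h1] at h2
    rw [h2]
    have i8 : Fintype ((Ideal.span {ϖ}).primesOver (integralClosure v.toValuationSubring F')) := Fintype.ofFinite _
    rw [finsum_eq_sum_of_fintype, Nat.cast_sum]
    have i9 : Fintype (fiberSet K F' ϖ) :=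
      (fiberSet_finite (K := K) (F := F') F ϖ hϖ).fintype
    have h3 : ∑ w ∈ v.fiber F', w.ord (a : F') = ∑ w : fiberSet K F' ϖ, w.1.ord (a : F') := by
      rw [← Finset.sum_coe_sort]
      refine Fintype.sum_equiv (Equiv.subtypeEquivRight fun w => ?_) _ _ (fun _ => rfl)
      rw [Place.mem_fiber, fiberSet_eq v ϖ hϖ, Set.mem_ofPred_eq]
    rw [h3]
    refine Fintype.sum_equiv (fiberEquiv (K := K) F ϖ hϖ) _ _ fun w => ?_
    have h4 := ord_ofHeightOneSpectrum_algebraMap (K := K) (F := F')
      ⟨centre w.1 (integralClosure_le_of_le w.2.1), centre_isPrime _ _, centre_ne_bot _ _⟩ ha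
    rw [← eq_ofHeightOneSpectrum w.1 (integralClosure_le_of_le w.2.1)] at h4
    exact h4
  obtain ⟨a, b, hb, rfl⟩ := IsFractionRing.div_surjective (A := integralClosure v.toValuationSubring F') f
  have hb0 : b ≠ 0 := nonZeroDivisors.ne_zero hb
  have ha0 : a ≠ 0 := by
    rintro rfl
    simp at hf
  have hbF : (b : F') ≠ 0 := by simpa using hb0
  have haF : (a : F') ≠ 0 := by simpa using ha0
  have hdiv : (algebraMap (integralClosure v.toValuationSubring F') F') a / (algebraMap (integralClosure v.toValuationSubring F') F') b =
    (a : F') * (b : F')⁻¹ := by rw [div_eq_mul_inv]; rfl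
  have hninv : Algebra.norm F (b : F')⁻¹ = (Algebra.norm F (b : F'))⁻¹ :=
    eq_inv_of_mul_eq_one_left (by rw [← map_mul, inv_mul_cancel₀ hbF, map_one])
  rw [hdiv, map_mul, hninv, v.ord_mul (Algebra.norm_ne_zero_iff.mpr haF)
    (inv_ne_zero (Algebra.norm_ne_zero_iff.mpr hbF)), v.ord_inv, ← key a ha0, ← key b hb0,
    ← Finset.sum_neg_distrib, ← Finset.sum_add_distrib]
  refine Finset.sum_congr rfl fun w _ => ?_
  rw [w.ord_mul haF (inv_ne_zero hbF), w.ord_inv]

theorem pushforwardNormFormula : Divisor.PushforwardNormFormula K F F' := by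
  classical
  intro f hf D hD v
  rw [Divisor.pushforward_apply, ← sum_ord_eq_ord_norm v hf]
  simp_rw [place_inertiaDeg_eq_one, Nat.cast_one, mul_one]
  rw [← Finset.sum_filter]
  have h1 : D.support.filter (fun w => w.restrict F = v) ⊆ v.fiber F' := by
    intro w hw
    rw [Finset.mem_filter] at hw
    exact Place.mem_fiber.mpr hw.2
  rw [← Finset.sum_subset h1]
  · exact Finset.sum_congr rfl fun w _ => (hD w)
  · intro w hw hw'
    rw [Finset.mem_filter, not_and'] at hw'
    have := hw' (Place.mem_fiber.mp hw)
    rw [Finsupp.mem_support_iff, not_not, hD] at this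
    exact this

end PlaceLevel

section Along

variable {K F F' : Type*} [Field K] [Field F] [Field F'] [Algebra K F] [Algebra K F']
  [IsAlgClosed K] [CharZero K] [IsFF1 K F]

theorem isFF1_along (φ : F →ₐ[K] F') (hfin : FiniteAlong K φ) : IsFF1 K F' := by
  letI := algebraAlong φ
  haveI := isScalarTower_along φ
  haveI : FiniteDimensional F F' := hfin
  exact isFF1_of_finite K F F'

theorem isIntegral_of_finiteAlong (φ : F →ₐ[K] F') (hfin : FiniteAlong K φ) :
    φ.toRingHom.IsIntegral := by
  letI := algebraAlong φ
  haveI : FiniteDimensional F F' := hfin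
  exact (inferInstance : Algebra.IsIntegral F F').isIntegral

variable [HasPrincipalDivisors K F']

theorem fundamentalIdentityAlong (φ : F →ₐ[K] F') (hφ : φ.toRingHom.IsIntegral)
    (hfin : FiniteAlong K φ) : FundamentalIdentityAlong K φ hφ := by
  letI := algebraAlong φ
  haveI := isScalarTower_along φ
  haveI := isIntegral_along φ hφ
  haveI : FiniteDimensional F F' := hfin
  exact fundamentalIdentity (K := K) (F := F) (F' := F')

theorem normFormulaAlong (φ : F →ₐ[K] F') (hfin : FiniteAlong K φ) :
    NormFormulaAlong K φ hfin := by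
  letI := algebraAlong φ
  haveI := isScalarTower_along φ
  haveI : FiniteDimensional F F' := hfin
  exact pushforwardNormFormula (K := K) (F := F) (F' := F')

theorem inertiaDegAlong_eq_one (φ : F →ₐ[K] F') (hφ : φ.toRingHom.IsIntegral)
    (hfin : FiniteAlong K φ) (w : Place K F') : w.inertiaDegAlong φ hφ = 1 := by
  letI := algebraAlong φ
  haveI := isScalarTower_along φ
  haveI := isIntegral_along φ hφ
  haveI : FiniteDimensional F F' := hfin
  exact place_inertiaDeg_eq_one (K := K) (F := F) w

theorem sum_ramificationIndexAlong (φ : F →ₐ[K] F') (hφ : φ.toRingHom.IsIntegral)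
    (hfin : FiniteAlong K φ) (v : Place K F) :
    ∑ w ∈ Place.fiberAlong φ hφ v, (w.ramificationIndexAlong φ : ℤ) = finrankAlong K φ := by
  letI := algebraAlong φ
  haveI := isScalarTower_along φ
  haveI := isIntegral_along φ hφ
  haveI : FiniteDimensional F F' := hfin
  exact sum_ramificationIndex (K := K) (F := F) (F' := F') v

theorem sum_ord_eq_ord_normAlong (φ : F →ₐ[K] F') (hφ : φ.toRingHom.IsIntegral)
    (hfin : FiniteAlong K φ) (v : Place K F) {f : F'} (hf : f ≠ 0) :
    letI := algebraAlong φ
    ∑ w ∈ Place.fiberAlong φ hφ v, w.ord f = v.ord (Algebra.norm F f) := by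
  letI := algebraAlong φ
  haveI := isScalarTower_along φ
  haveI := isIntegral_along φ hφ
  haveI : FiniteDimensional F F' := hfin
  exact sum_ord_eq_ord_norm (K := K) (F := F) (F' := F') v hf

end Along

end Fermat.Agent.Jan.RelFundamental
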