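import Mathlib
import Fermat.Agent.Jan.RelFundamental
import Fermat.Prelude.Def_ModularCurve_HeckeModule

/-!
# The modular function fields are function fields of one variable; `HeckeInputsAlong`
-/

set_option autoImplicit false
set_option linter.unusedSectionVars false
set_option linter.style.haveILetI false

noncomputable section

open AlgebraicCurve IntermediateField ModularCurve Fermat.FF

namespace Fermat.Agent.Jan.HeckeInputs

open Fermat.Agent.Jan.RelFundamental

/-- Any `K`-algebra map between function fields of one variable is finite. -/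
theorem finiteAlong {K F F' : Type*} [Field K] [Field F] [Field F'] [Algebra K F] [Algebra K F']
    [h : IsFF1 K F] [IsFF1 K F'] (φ : F →ₐ[K] F') : FiniteAlong K φ := by
  letI := algebraAlong φ
  haveI := isScalarTower_along φ
  obtain ⟨x, hx, -⟩ := h.exists_finite
  have hy : Transcendental K (φ x) := fun halg =>
    hx ((isAlgebraic_algHom_iff φ φ.toRingHom.injective).mp halg)
  have hfin := IsFF1.finiteDimensional_adjoin hy
  have hle : K⟮φ x⟯ ≤ φ.fieldRange := by
    rw [IntermediateField.adjoin_simple_le_iff]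
    exact ⟨x, rfl⟩
  show FiniteDimensional F F'
  -- `K⟮φ x⟯ → F`
  let e : F ≃ₐ[K] φ.fieldRange := AlgEquiv.ofInjectiveField φ
  let ψ : K⟮φ x⟯ →+* F := (e.symm : φ.fieldRange →+* F).comp (IntermediateField.inclusion hle).toRingHom
  letI : Algebra K⟮φ x⟯ F := ψ.toAlgebra
  haveI : IsScalarTower K⟮φ x⟯ F F' := IsScalarTower.of_algebraMap_eq fun z => by
    show (z : F') = φ (e.symm (IntermediateField.inclusion hle z))
    have h1 : ((e (e.symm (IntermediateField.inclusion hle z)) : φ.fieldRange) : F') =
      φ (e.symm (IntermediateField.inclusion hle z)) := rfl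
    rw [← h1, AlgEquiv.apply_symm_apply]
    rfl
  exact Module.Finite.of_restrictScalars_finite K⟮φ x⟯ F F'

theorem isIntegral_of_finite {K F F' : Type*} [Field K] [Field F] [Field F'] [Algebra K F]
    [Algebra K F'] (φ : F →ₐ[K] F') (hfin : FiniteAlong K φ) : φ.toRingHom.IsIntegral := by
  letI := algebraAlong φ
  haveI : FiniteDimensional F F' := hfin
  exact (inferInstance : Algebra.IsIntegral F F').isIntegral

/-- Input: the functions `j(dτ)` are algebraic over `ℚ(j)`. -/
def JAlg : Prop := ∀ (d : ℕ) [NeZero d], IsAlgebraic ℚ⟮jq⟯ (qExpand ℚ d jq)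

section Transc

variable {L : Type*} [Field L]

/-- A Laurent series with a nonzero polar coefficient is transcendental over the constants. -/
theorem transcendental_of_coeff {x : LaurentSeries L} {n : ℤ} (hn : n < 0)
    (h : x.coeff n ≠ 0) : Transcendental L x := by
  intro halg
  obtain ⟨p, hp, hpx⟩ := halg.isIntegral
  have h1 : IsIntegral (PowerSeries L) x := by
    refine ⟨p.map (algebraMap L (PowerSeries L)), hp.map _, ?_⟩
    rw [Polynomial.eval₂_map]
    exact hpx
  obtain ⟨f, hf⟩ := IsIntegrallyClosed.isIntegral_iff.mp h1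
  apply h
  rw [← hf]
  exact ofPowerSeries_coeff_of_neg f hn

end Transc

variable (L : Type*) [Field L] [Algebra ℚ L]

/-- `j` with coefficients in `L`. -/
def jL : LaurentSeries L := coeffEmb L jq

theorem transcendental_jL : Transcendental L (jL L) := by
  refine transcendental_of_coeff (n := -1) (by norm_num) ?_
  rw [jL, coeffEmb_coeff, coeff_jq_neg_one, map_one]
  exact one_ne_zero

theorem coeffEmb_algebraMap (c : ℚ) :
    coeffEmb L (algebraMap ℚ (LaurentSeries ℚ) c) = algebraMap L (LaurentSeries L) (algebraMap ℚ L c) := by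
  rw [ModularCurve.algebraMap_laurentSeries_eq_single, ModularCurve.algebraMap_laurentSeries_eq_single,
    coeffEmb, coeffMap_single]

theorem coeffEmb_mem_adjoin (z : LaurentSeries ℚ) (hz : z ∈ ℚ⟮jq⟯) :
    coeffEmb L z ∈ L⟮jL L⟯ := by
  induction hz using IntermediateField.adjoin_induction with
  | mem x hx =>
    rw [Set.mem_singleton_iff.mp hx]
    exact IntermediateField.mem_adjoin_simple_self L _
  | algebraMap c => 
    show coeffEmb L (algebraMap ℚ (LaurentSeries ℚ) c) ∈ _
    rw [coeffEmb_algebraMap]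
    exact (L⟮jL L⟯).algebraMap_mem _
  | add x y _ _ hx hy =>
    show coeffEmb L (x + y) ∈ _
    rw [map_add]
    exact add_mem hx hy
  | inv x _ hx =>
    show coeffEmb L (x⁻¹) ∈ _
    rw [map_inv₀]
    exact inv_mem hx
  | mul x y _ _ hx hy =>
    show coeffEmb L (x * y) ∈ _
    rw [map_mul]
    exact mul_mem hx hy

theorem isAlgebraic_coeffEmb {z : LaurentSeries ℚ} (hz : IsAlgebraic ℚ⟮jq⟯ z) :
    IsAlgebraic L⟮jL L⟯ (coeffEmb L z) := by
  let ψ : ℚ⟮jq⟯ →+* L⟮jL L⟯ :=
    ((coeffEmb L).comp (algebraMap ℚ⟮jq⟯ (LaurentSeries ℚ))).codRestrict _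
      (fun z => coeffEmb_mem_adjoin L z z.2)
  exact hz.ringHom_of_comp_eq ψ (coeffEmb L) ψ.injective rfl

theorem laurentBaseChange_full_eq (N : ℕ) :
    laurentBaseChange L (modularFunctionFieldFull N) =
      IntermediateField.adjoin L (coeffEmb L '' divisorExpansions N) := by
  apply le_antisymm
  · rw [laurentBaseChange, IntermediateField.adjoin_le_iff]
    rintro _ ⟨z, hz, rfl⟩
    have hz' : z ∈ IntermediateField.adjoin ℚ (divisorExpansions N) := hz
    induction hz' using IntermediateField.adjoin_induction with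
    | mem x hx => exact IntermediateField.subset_adjoin _ _ ⟨x, hx, rfl⟩
    | algebraMap c =>
      show coeffEmb L (algebraMap ℚ (LaurentSeries ℚ) c) ∈ _
      rw [coeffEmb_algebraMap]
      exact IntermediateField.algebraMap_mem _ _
    | add x y hx' hy' hx hy =>
      show coeffEmb L (x + y) ∈ _
      rw [map_add]
      exact add_mem (hx hx') (hy hy')
    | inv x hx' hx =>
      show coeffEmb L (x⁻¹) ∈ _
      rw [map_inv₀]
      exact inv_mem (hx hx')
    | mul x y hx' hy' hx hy =>
      show coeffEmb L (x * y) ∈ _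
      rw [map_mul]
      exact mul_mem (hx hx') (hy hy')
  · refine IntermediateField.adjoin.mono _ _ _ ?_
    rintro _ ⟨z, hz, rfl⟩
    exact ⟨z, IntermediateField.subset_adjoin _ _ hz, rfl⟩

theorem divisorExpansions_finite (N : ℕ) [NeZero N] : (divisorExpansions N).Finite := by
  refine (Set.finite_range (fun d : N.divisors =>
    haveI : NeZero (d : ℕ) := ⟨(Nat.pos_of_mem_divisors d.2).ne'⟩
    qExpand ℚ (d : ℕ) jq)).subset ?_
  rintro x ⟨d, hd0, hd, rfl⟩
  exact ⟨⟨d, Nat.mem_divisors.mpr ⟨hd, NeZero.ne N⟩⟩, rfl⟩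

/-- The modular function field of level `N` over `L` is a function field of one variable. -/
theorem isFF1_modular (hJ : JAlg) (N : ℕ) [NeZero N] :
    IsFF1 L (laurentBaseChange L (modularFunctionFieldFull N)) := by
  set B := laurentBaseChange L (modularFunctionFieldFull N) with hB
  have hjmem : jL L ∈ B := by
    refine coeffEmb_mem_laurentBaseChange L ?_
    have h := jqd_mem_full N (one_dvd N)
    rwa [qExpand_one_apply] at h
  let x : B := ⟨jL L, hjmem⟩
  have hx : Transcendental L x := fun halg =>
    transcendental_jL L (IntermediateField.isAlgebraic_iff.mp halg)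
  refine ⟨x, hx, ?_⟩
  have hle : L⟮jL L⟯ ≤ B := by
    rw [IntermediateField.adjoin_simple_le_iff]
    exact hjmem
  have hfin : FiniteDimensional L⟮jL L⟯ (extendScalars hle) := by
    have hle' : L⟮jL L⟯ ≤ IntermediateField.adjoin L (coeffEmb L '' divisorExpansions N) := by
      rw [← laurentBaseChange_full_eq]
      exact hle
    have h1 : extendScalars hle = IntermediateField.adjoin L⟮jL L⟯ (coeffEmb L '' divisorExpansions N) := by
      rw [← extendScalars_adjoin hle']
      congr 1
      exact laurentBaseChange_full_eq L N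
    rw [h1]
    have : Finite (coeffEmb L '' divisorExpansions N : Set (LaurentSeries L)) :=
      ((divisorExpansions_finite N).image _).to_subtype
    refine IntermediateField.finiteDimensional_adjoin ?_
    rintro _ ⟨z, ⟨d, hd0, hd, rfl⟩, rfl⟩
    exact (isAlgebraic_coeffEmb L (hJ d)).isIntegral
  -- transport to `L⟮x⟯` and `B`
  let E₀ : IntermediateField L (LaurentSeries L) := L⟮jL L⟯
  have hmem : ∀ z : E₀, (⟨z, hle z.2⟩ : B) ∈ L⟮x⟯ := by
    rintro ⟨z, hz⟩
    have hz' : z ∈ (L⟮x⟯).map B.val := by
      rw [IntermediateField.adjoin_map, Set.image_singleton]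
      exact hz
    obtain ⟨y, hy, hyz⟩ := hz'
    have : (⟨z, hle hz⟩ : B) = y := Subtype.ext hyz.symm
    rw [this]
    exact hy
  let ψ : E₀ →+* L⟮x⟯ := (IntermediateField.inclusion hle).toRingHom.codRestrict _ hmem
  letI i1 : Algebra E₀ L⟮x⟯ := ψ.toAlgebra
  letI i2 : Algebra E₀ B := (IntermediateField.inclusion hle).toRingHom.toAlgebra
  haveI i3 : IsScalarTower E₀ L⟮x⟯ B := IsScalarTower.of_algebraMap_eq fun z => rfl
  haveI i4 : FiniteDimensional E₀ B := by
    exact hfin
  exact Module.Finite.of_restrictScalars_finite E₀ L⟮x⟯ B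

section Inputs

variable [IsAlgClosed L]

theorem hasPrincipalDivisors_modular (hJ : JAlg) (N : ℕ) [NeZero N] :
    HasPrincipalDivisors L (laurentBaseChange L (modularFunctionFieldFull N)) := by
  haveI := isFF1_modular L hJ N
  haveI : CharZero L := charZero_of_injective_algebraMap (algebraMap ℚ L).injective
  exact hasPrincipalDivisors

variable (N ℓ : ℕ) [NeZero N] [NeZero ℓ]

omit [IsAlgClosed L] in
theorem finiteAlong_heckeAlphaBar (hJ : JAlg) : FiniteAlong L (heckeAlphaBar L N ℓ) := by
  haveI := isFF1_modular L hJ N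
  haveI := isFF1_modular L hJ (N * ℓ)
  exact finiteAlong _

omit [IsAlgClosed L] in
theorem finiteAlong_heckeBetaBar (hJ : JAlg) : FiniteAlong L (heckeBetaBar L N ℓ) := by
  haveI := isFF1_modular L hJ N
  haveI := isFF1_modular L hJ (N * ℓ)
  exact finiteAlong _

omit [IsAlgClosed L] in
theorem heckeAlphaBarIntegral (hJ : JAlg) : HeckeAlphaBarIntegral L N ℓ :=
  isIntegral_of_finite _ (finiteAlong_heckeAlphaBar L N ℓ hJ)

omit [IsAlgClosed L] in
theorem heckeBetaBarIntegral (hJ : JAlg) : HeckeBetaBarIntegral L N ℓ :=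
  isIntegral_of_finite _ (finiteAlong_heckeBetaBar L N ℓ hJ)

theorem heckeInputsAlong (hJ : JAlg) : HeckeInputsAlong L N ℓ := by
  haveI := isFF1_modular L hJ N
  haveI := isFF1_modular L hJ (N * ℓ)
  haveI : CharZero L := charZero_of_injective_algebraMap (algebraMap ℚ L).injective
  haveI := hasPrincipalDivisors_modular L hJ (N * ℓ)
  exact heckeInputsAlong_intro (heckeAlphaBarIntegral L N ℓ hJ) (heckeBetaBarIntegral L N ℓ hJ)
    (fundamentalIdentityAlong _ _ (finiteAlong_heckeBetaBar L N ℓ hJ))
    (finiteAlong_heckeAlphaBar L N ℓ hJ) (normFormulaAlong _ _)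

end Inputs

end Fermat.Agent.Jan.HeckeInputs
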