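import Mathlib
import Fermat.Agent.FF.Basic

set_option autoImplicit false

noncomputable section

/-!
Weak approximation (elementary form) for places of a function field: separating functions and
functions with prescribed orders at finitely many places.
-/

open AlgebraicCurve

namespace Fermat.Agent.Jan.Approx

open Fermat.FF

variable {K F : Type*} [Field K] [Field F] [Algebra K F]

theorem exists_sep {v w : Place K F} (h : v ≠ w) : ∃ x : F, v.ord x < 0 ∧ 0 < w.ord x := by
  have h1 : ¬ w.toValuationSubring ≤ v.toValuationSubring :=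
    fun hle => h (place_eq_of_le hle).symm
  have h2 : ¬ v.toValuationSubring ≤ w.toValuationSubring := fun hle => h (place_eq_of_le hle)
  obtain ⟨a, haw, hav⟩ := SetLike.not_le_iff_exists.mp h1
  obtain ⟨b, hbv, hbw⟩ := SetLike.not_le_iff_exists.mp h2
  rw [not_mem_iff_ord] at hav hbw
  have ha0 : a ≠ 0 := ne_zero_of_ord_ne_zero v hav.ne
  have hb0 : b ≠ 0 := ne_zero_of_ord_ne_zero w hbw.ne
  have haw' := ord_nonneg_of_mem w haw
  have hbv' := ord_nonneg_of_mem v hbv
  refine ⟨a * b⁻¹, ?_, ?_⟩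
  · rw [v.ord_mul ha0 (inv_ne_zero hb0), v.ord_inv]
    omega
  · rw [w.ord_mul ha0 (inv_ne_zero hb0), w.ord_inv]
    omega

theorem exists_ord_neg_pos (v : Place K F) (S : Finset (Place K F)) (h : v ∉ S) :
    ∃ x : F, v.ord x < 0 ∧ ∀ w ∈ S, 0 < w.ord x := by
  classical
  induction S using Finset.induction_on with
  | empty =>
    obtain ⟨t, ht⟩ := exists_ord_eq_one v
    refine ⟨t⁻¹, ?_, by simp⟩
    rw [v.ord_inv]
    omega
  | insert w' S hw' ih =>
    have hv : v ∉ S := fun hh => h (Finset.mem_insert_of_mem hh)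
    have hvw : v ≠ w' := fun hh => h (hh ▸ Finset.mem_insert_self _ _)
    obtain ⟨a, hav, haS⟩ := ih hv
    obtain ⟨b, hbv, hbw⟩ := exists_sep hvw
    have ha0 : a ≠ 0 := ne_zero_of_ord_ne_zero v hav.ne
    have hb0 : b ≠ 0 := ne_zero_of_ord_ne_zero v hbv.ne
    set r : ℕ := 1 + ∑ w ∈ S, (w.ord b).natAbs with hr
    have hr1 : 1 ≤ r := by omega
    have hrS : ∀ w ∈ S, 0 < (r : ℤ) * w.ord a + w.ord b := by
      intro w hw
      have h1 : (w.ord b).natAbs ≤ ∑ w ∈ S, (w.ord b).natAbs :=
        Finset.single_le_sum (f := fun w : Place K F => (w.ord b).natAbs)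
          (fun _ _ => Nat.zero_le _) hw
      have h2 : (r : ℤ) ≤ r * w.ord a := by
        have := haS w hw
        nlinarith [Int.natCast_nonneg r]
      omega
    have har : a ^ r ≠ 0 := pow_ne_zero _ ha0
    by_cases hw : 0 ≤ w'.ord a
    · refine ⟨a ^ r * b, ?_, ?_⟩
      · rw [v.ord_mul har hb0, ord_pow]
        nlinarith [Int.natCast_nonneg r]
      · intro w hwS
        rcases Finset.mem_insert.mp hwS with rfl | hwS
        · rw [w.ord_mul har hb0, ord_pow]
          nlinarith [Int.natCast_nonneg r]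
        · rw [w.ord_mul har hb0, ord_pow]
          exact hrS w hwS
    · rw [not_le] at hw
      have key1 : ∀ w : Place K F, w.ord a < 0 → w.ord (a ^ r + 1) = w.ord (a ^ r) := by
        intro w hwa
        refine ord_add_of_lt w har one_ne_zero ?_
        rw [ord_pow, w.ord_one]
        nlinarith [Int.natCast_nonneg r]
      have h1a : a ^ r + 1 ≠ 0 := by
        refine ne_zero_of_ord_ne_zero v ?_
        rw [key1 v hav, ord_pow]
        nlinarith [Int.natCast_nonneg r]
      have key2 : ∀ w : Place K F, 0 < w.ord a → w.ord (a ^ r + 1) = 0 := by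
        intro w hwa
        rw [add_comm, ord_add_of_lt w one_ne_zero har, w.ord_one]
        rw [ord_pow, w.ord_one]
        nlinarith [Int.natCast_nonneg r]
      have hord : ∀ w : Place K F, w.ord (a ^ r * b * (a ^ r + 1)⁻¹) =
          w.ord (a ^ r) + w.ord b - w.ord (a ^ r + 1) := by
        intro w
        rw [w.ord_mul (mul_ne_zero har hb0) (inv_ne_zero h1a), w.ord_mul har hb0, w.ord_inv]
        ring
      refine ⟨a ^ r * b * (a ^ r + 1)⁻¹, ?_, ?_⟩
      · rw [hord, key1 v hav]
        omega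
      · intro w hwS
        rcases Finset.mem_insert.mp hwS with rfl | hwS
        · rw [hord, key1 _ hw]
          omega
        · rw [hord, key2 w (haS w hwS), ord_pow]
          have := hrS w hwS
          omega

/-- There is a function with order `1` at a given place and `0` at finitely many others. -/
theorem exists_ord_one_zero (v : Place K F) (S : Finset (Place K F)) (h : v ∉ S) :
    ∃ f : F, v.ord f = 1 ∧ ∀ w ∈ S, w.ord f = 0 := by
  classical
  obtain ⟨x, hxv, hxS⟩ := exists_ord_neg_pos v S h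
  obtain ⟨t, ht⟩ := exists_ord_eq_one v
  have hx0 : x ≠ 0 := ne_zero_of_ord_ne_zero v hxv.ne
  have ht0 : t ≠ 0 := ne_zero_of_ord_ne_zero v (by omega)
  -- `y = 1 / (1 + x ^ r)` is close to `0` at `v` and close to `1` on `S`.
  set r : ℕ := 2 + ∑ w ∈ S, (w.ord t).natAbs with hr
  have hr2 : (2 : ℤ) ≤ r := by omega
  have hrS : ∀ w ∈ S, 0 < (r : ℤ) * w.ord x + w.ord t := by
    intro w hw
    have h1 : (w.ord t).natAbs ≤ ∑ w ∈ S, (w.ord t).natAbs :=
      Finset.single_le_sum (f := fun w : Place K F => (w.ord t).natAbs)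
        (fun _ _ => Nat.zero_le _) hw
    have h2 : (r : ℤ) ≤ r * w.ord x := by
      have := hxS w hw
      nlinarith
    omega
  have hxr : x ^ r ≠ 0 := pow_ne_zero _ hx0
  have hv1 : v.ord (x ^ r + 1) = v.ord (x ^ r) := by
    refine ord_add_of_lt v hxr one_ne_zero ?_
    rw [ord_pow, v.ord_one]
    nlinarith
  have h1x : x ^ r + 1 ≠ 0 := by
    refine ne_zero_of_ord_ne_zero v ?_
    rw [hv1, ord_pow]
    nlinarith
  have hS1 : ∀ w ∈ S, w.ord (x ^ r + 1) = 0 := by
    intro w hw
    rw [add_comm, ord_add_of_lt w one_ne_zero hxr, w.ord_one]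
    rw [ord_pow, w.ord_one]
    have := hxS w hw
    nlinarith
  -- `f = (t x ^ r + 1) / (1 + x ^ r)`
  have htx : t * x ^ r ≠ 0 := mul_ne_zero ht0 hxr
  have hvf : v.ord (t * x ^ r + 1) = 1 + r * v.ord x := by
    rw [ord_add_of_lt v htx one_ne_zero, v.ord_mul ht0 hxr, ht, ord_pow]
    rw [v.ord_mul ht0 hxr, ht, ord_pow, v.ord_one]
    nlinarith
  have hSf : ∀ w ∈ S, w.ord (t * x ^ r + 1) = 0 := by
    intro w hw
    rw [add_comm, ord_add_of_lt w one_ne_zero htx, w.ord_one]
    rw [w.ord_mul ht0 hxr, ord_pow, w.ord_one]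
    have := hrS w hw
    omega
  have hf0 : t * x ^ r + 1 ≠ 0 := by
    refine ne_zero_of_ord_ne_zero v ?_
    rw [hvf]
    nlinarith
  refine ⟨(t * x ^ r + 1) * (x ^ r + 1)⁻¹, ?_, ?_⟩
  · rw [v.ord_mul hf0 (inv_ne_zero h1x), v.ord_inv, hvf, hv1, ord_pow]
    ring
  · intro w hw
    rw [w.ord_mul hf0 (inv_ne_zero h1x), w.ord_inv, hSf w hw, hS1 w hw]
    ring

/-- Prescribed orders at finitely many places. -/
theorem exists_ord_eq (S : Finset (Place K F)) (n : Place K F → ℤ) :
    ∃ f : F, f ≠ 0 ∧ ∀ w ∈ S, w.ord f = n w := by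
  classical
  have : ∀ w ∈ S, ∃ f : F, w.ord f = 1 ∧ ∀ w' ∈ S.erase w, w'.ord f = 0 := fun w _ =>
    exists_ord_one_zero w (S.erase w) (Finset.notMem_erase w S)
  choose! f hf1 hf0 using this
  have hfne : ∀ w ∈ S, f w ≠ 0 := fun w hw =>
    ne_zero_of_ord_ne_zero w (by rw [hf1 w hw]; exact one_ne_zero)
  refine ⟨∏ w ∈ S, f w ^ n w, Finset.prod_ne_zero_iff.mpr fun w hw => zpow_ne_zero _ (hfne w hw),
    fun w hw => ?_⟩
  have hprod : ∀ T : Finset (Place K F), T ⊆ S →
      w.ord (∏ w' ∈ T, f w' ^ n w') = ∑ w' ∈ T, n w' * w.ord (f w') := by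
    intro T hT
    induction T using Finset.induction_on with
    | empty => simp
    | insert a T ha ih =>
      have haS : a ∈ S := hT (Finset.mem_insert_self _ _)
      have hTS : T ⊆ S := fun x hx => hT (Finset.mem_insert_of_mem hx)
      rw [Finset.prod_insert ha, Finset.sum_insert ha, w.ord_mul (zpow_ne_zero _ (hfne a haS))
        (Finset.prod_ne_zero_iff.mpr fun w hw => zpow_ne_zero _ (hfne w (hTS hw))), ih hTS,
        w.ord_zpow]
  rw [hprod S le_rfl, Finset.sum_eq_single w]
  · rw [hf1 w hw, mul_one]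
  · intro w' hw' hne
    rw [hf0 w' hw' w (Finset.mem_erase.mpr ⟨hne.symm, hw⟩), mul_zero]
  · intro hh
    exact absurd hw hh

end Fermat.Agent.Jan.Approx
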