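import Mathlib
import Fermat.Agent.Jan.Approx
import Fermat.Prelude.Def_AlgebraicCurve_Correspondence

set_option autoImplicit false

noncomputable section

/-!
Functoriality of pull-back and push-forward of divisors, and the base change formula
`a^* b_* = b'_* a'^*` for cartesian squares of function fields.
-/

open AlgebraicCurve

namespace Fermat.Agent.Jan.PushPull

open Fermat.FF

section Functoriality

variable {K F F' F'' : Type*} [Field K] [Field F] [Field F'] [Field F'']
  [Algebra K F] [Algebra K F'] [Algebra K F'']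
variable (φ : F →ₐ[K] F') (ψ : F' →ₐ[K] F'')
  (hφ : φ.toRingHom.IsIntegral) (hψ : ψ.toRingHom.IsIntegral)
  (hc : (ψ.comp φ).toRingHom.IsIntegral)

include hφ hψ in
theorem isIntegral_comp : (ψ.comp φ).toRingHom.IsIntegral :=
  RingHom.IsIntegral.trans φ.toRingHom ψ.toRingHom hφ hψ

theorem restrictAlong_comp (w : Place K F'') :
    w.restrictAlong (ψ.comp φ) hc = (w.restrictAlong ψ hψ).restrictAlong φ hφ := by
  ext x
  exact Iff.rfl

include hφ hc in
theorem ramificationIndexAlong_comp (w : Place K F'') :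
    Place.ramificationIndexAlong (ψ.comp φ) w =
      Place.ramificationIndexAlong ψ w *
        Place.ramificationIndexAlong φ (w.restrictAlong ψ hψ) := by
  obtain ⟨t, ht⟩ := exists_ord_eq_one ((w.restrictAlong ψ hψ).restrictAlong φ hφ)
  have h1 := Place.ord_restrictAlong (ψ.comp φ) hc w t
  have h2 := Place.ord_restrictAlong ψ hψ w (φ t)
  have h3 := Place.ord_restrictAlong φ hφ (w.restrictAlong ψ hψ) t
  rw [restrictAlong_comp φ ψ hφ hψ, ht, mul_one] at h1
  rw [h3, ht, mul_one] at h2
  have h4 : w.ord ((ψ.comp φ) t) = w.ord (ψ (φ t)) := rfl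
  rw [h4, h2] at h1
  exact_mod_cast h1.symm

theorem pullbackAlong_comp [HasPrincipalDivisors K F'] [HasPrincipalDivisors K F'']
    (D : Divisor K F) :
    Divisor.pullbackAlong (ψ.comp φ) hc D =
      Divisor.pullbackAlong ψ hψ (Divisor.pullbackAlong φ hφ D) := by
  refine Finsupp.ext fun w => ?_
  rw [Divisor.pullbackAlong_apply, Divisor.pullbackAlong_apply, Divisor.pullbackAlong_apply,
    ramificationIndexAlong_comp φ ψ hφ hψ hc, restrictAlong_comp φ ψ hφ hψ hc]
  push_cast
  ring

theorem pullbackAlong_congr [HasPrincipalDivisors K F'] {φ φ' : F →ₐ[K] F'} (h : φ = φ')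
    (hφ : φ.toRingHom.IsIntegral) (hφ' : φ'.toRingHom.IsIntegral) (D : Divisor K F) :
    Divisor.pullbackAlong φ hφ D = Divisor.pullbackAlong φ' hφ' D := by
  subst h; rfl

theorem pushforwardAlong_congr {φ φ' : F →ₐ[K] F'} (h : φ = φ')
    (hφ : φ.toRingHom.IsIntegral) (hφ' : φ'.toRingHom.IsIntegral) (D : Divisor K F') :
    Divisor.pushforwardAlong φ hφ D = Divisor.pushforwardAlong φ' hφ' D := by
  subst h; rfl

theorem deg_restrictAlong_mul (w : Place K F') :
    (w.restrictAlong φ hφ).deg * w.inertiaDegAlong φ hφ = w.deg := by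
  let _ := algebraAlong φ
  have _ := isScalarTower_along φ
  have _ := isIntegral_along φ hφ
  exact w.deg_restrict_mul_inertiaDeg (F := F)

theorem inertiaDegAlong_eq_one {w : Place K F'} (hw : w.deg = 1) :
    w.inertiaDegAlong φ hφ = 1 := by
  have := deg_restrictAlong_mul φ hφ w
  rw [hw] at this
  exact Nat.eq_one_of_mul_eq_one_left this

theorem deg_restrictAlong_eq_one {w : Place K F'} (hw : w.deg = 1) :
    (w.restrictAlong φ hφ).deg = 1 := by
  have := deg_restrictAlong_mul φ hφ w
  rw [hw] at this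
  exact Nat.eq_one_of_mul_eq_one_right this

theorem pushforwardAlong_comp (hdeg : ∀ w : Place K F'', w.deg = 1) (D : Divisor K F'') :
    Divisor.pushforwardAlong (ψ.comp φ) hc D =
      Divisor.pushforwardAlong φ hφ (Divisor.pushforwardAlong ψ hψ D) := by
  induction D using Finsupp.induction with
  | zero => simp
  | single_add w n D _ _ ih =>
    rw [map_add, map_add, map_add, ih, Divisor.pushforwardAlong_single,
      Divisor.pushforwardAlong_single, Divisor.pushforwardAlong_single,
      inertiaDegAlong_eq_one _ _ (hdeg w), inertiaDegAlong_eq_one _ _ (hdeg w),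
      inertiaDegAlong_eq_one _ _ (deg_restrictAlong_eq_one ψ hψ (hdeg w)),
      restrictAlong_comp φ ψ hφ hψ]
    simp

theorem pushforwardAlong_apply_eq_zero (D : Divisor K F') (v : Place K F)
    (h : ∀ w : Place K F', w.restrictAlong φ hφ = v → D w = 0) :
    Divisor.pushforwardAlong φ hφ D v = 0 := by
  classical
  let _ := algebraAlong φ
  have _ := isScalarTower_along φ
  have _ := isIntegral_along φ hφ
  have h1 : Divisor.pushforwardAlong φ hφ D v = Divisor.pushforward F D v := rfl
  rw [h1, Divisor.pushforward_apply]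
  refine Finset.sum_eq_zero fun w _ => ?_
  split_ifs with hw
  · rw [h w hw, zero_mul]
  · rfl

end Functoriality

section Norm

variable {K F F' : Type*} [Field K] [Field F] [Field F'] [Algebra K F] [Algebra K F']

/-- The norm along a morphism of fields. -/
def normAlong (φ : F →ₐ[K] F') (x : F') : F :=
  letI := algebraAlong φ
  Algebra.norm F x

theorem pushforwardAlong_apply_eq_ord (φ : F →ₐ[K] F') (hφ : φ.toRingHom.IsIntegral)
    (hfin : FiniteAlong K φ) (hN : NormFormulaAlong K φ hfin) {f : F'} (hf : f ≠ 0)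
    {D : Divisor K F'} (hD : ∀ w, D w = w.ord f) (v : Place K F) :
    Divisor.pushforwardAlong φ hφ D v = v.ord (normAlong φ f) :=
  hN f hf D hD v

end Norm

section BaseChange

/-- The composite of two correspondences, in a cartesian situation: abstract form. -/
theorem correspondence_correspondence {K F L₁ L₂ E : Type*} [Field K] [Field F] [Field L₁]
    [Field L₂] [Field E] [Algebra K F] [Algebra K L₁] [Algebra K L₂] [Algebra K E]
    [HasPrincipalDivisors K L₁] [HasPrincipalDivisors K L₂] [HasPrincipalDivisors K E]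
    (β : F →ₐ[K] L₁) (α : F →ₐ[K] L₁) (β' : F →ₐ[K] L₂) (α' : F →ₐ[K] L₂)
    (a' : L₂ →ₐ[K] E) (b' : L₁ →ₐ[K] E) (γ δ : F →ₐ[K] E)
    (hβ : β.toRingHom.IsIntegral) (hα : α.toRingHom.IsIntegral)
    (hβ' : β'.toRingHom.IsIntegral) (hα' : α'.toRingHom.IsIntegral)
    (ha' : a'.toRingHom.IsIntegral) (hb' : b'.toRingHom.IsIntegral)
    (hγ : γ.toRingHom.IsIntegral) (hδ : δ.toRingHom.IsIntegral)
    (hc1 : b'.comp α = γ) (hc2 : a'.comp β' = δ)
    (hdeg : ∀ w : Place K E, w.deg = 1)
    (hbc : ∀ D : Divisor K L₂, Divisor.pullbackAlong β hβ (Divisor.pushforwardAlong α' hα' D) =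
      Divisor.pushforwardAlong b' hb' (Divisor.pullbackAlong a' ha' D))
    (D : Divisor K F) :
    Divisor.correspondence β α hβ hα (Divisor.correspondence β' α' hβ' hα' D) =
      Divisor.pushforwardAlong γ hγ (Divisor.pullbackAlong δ hδ D) := by
  subst hc1 hc2
  rw [Divisor.correspondence_apply, Divisor.correspondence_apply, hbc,
    pushforwardAlong_comp α b' hα hb' hγ hdeg, pullbackAlong_comp β' a' hβ' ha' hδ]

variable {K F L₁ L₂ E : Type*} [Field K] [Field F] [Field L₁] [Field L₂] [Field E]
  [Algebra K F] [Algebra K L₁] [Algebra K L₂] [Algebra K E]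
variable (a : F →ₐ[K] L₁) (b : F →ₐ[K] L₂) (a' : L₂ →ₐ[K] E) (b' : L₁ →ₐ[K] E)

/-- Norms are compatible with base change along a cartesian square of fields. -/
theorem normAlong_baseChange (hcomm : ∀ x, b' (a x) = a' (b x))
    (hfb : FiniteAlong K b) (hfb' : FiniteAlong K b')
    (hdeg : finrankAlong K b' = finrankAlong K b)
    (hgen : ∀ x : E, x ∈ Subfield.closure (Set.range b' ∪ Set.range a')) (f : L₂) :
    normAlong b' (a' f) = a (normAlong b f) := by
  classical
  let _ := algebraAlong b
  let _ : Algebra L₁ E := algebraAlong b'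
  have _ : Module.Finite F L₂ := hfb
  have _ : Module.Finite L₁ E := hfb'
  have hdeg' : Module.finrank L₁ E = Module.finrank F L₂ := hdeg
  let c := Module.finBasis F L₂
  let d : Fin (Module.finrank F L₂) → E := fun i => a' (c i)
  have hsmul : ∀ (r : F) (i), a' (r • c i) = (a r) • d i := by
    intro r i
    rw [Algebra.smul_def, Algebra.smul_def, map_mul]
    show a' (b r) * a' (c i) = b' (a r) * d i
    rw [hcomm]
  have hexp : ∀ x : L₂, a' x = ∑ i, (a (c.repr x i)) • d i := by
    intro x
    conv_lhs => rw [← c.sum_repr x, map_sum]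
    exact Finset.sum_congr rfl fun i _ => hsmul _ i
  have hspan1 : ∀ x : L₂, a' x ∈ Submodule.span L₁ (Set.range d) := by
    intro x
    rw [hexp]
    exact Submodule.sum_mem _ fun i _ =>
      Submodule.smul_mem _ _ (Submodule.subset_span ⟨i, rfl⟩)
  have hadj : (Algebra.adjoin L₁ (Set.range a')).toSubmodule =
      Submodule.span L₁ (Set.range d) := by
    rw [Algebra.adjoin_eq_span]
    have h1 : (Submonoid.closure (Set.range a') : Set E) = Set.range a' := by
      have : Set.range a' = ((MonoidHom.mrange (a' : L₂ →* E) : Submonoid E) : Set E) := by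
        ext x; simp
      rw [this, Submonoid.closure_eq]
    rw [h1]
    refine le_antisymm (Submodule.span_le.mpr ?_) (Submodule.span_mono ?_)
    · rintro _ ⟨x, rfl⟩
      exact hspan1 x
    · rintro _ ⟨i, rfl⟩
      exact ⟨c i, rfl⟩
  have htop : Algebra.adjoin L₁ (Set.range a') = ⊤ := by
    rw [eq_top_iff]
    intro x _
    have hx := hgen x
    induction hx using Subfield.closure_induction with
    | mem y hy =>
      rcases hy with ⟨z, rfl⟩ | ⟨z, rfl⟩
      · exact Subalgebra.algebraMap_mem _ z
      · exact Algebra.subset_adjoin ⟨z, rfl⟩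
    | one => exact one_mem _
    | add x y _ _ hx hy => exact add_mem (hx trivial) (hy trivial)
    | neg x _ hx => exact neg_mem (hx trivial)
    | inv x _ hx =>
      exact (Algebra.adjoin L₁ (Set.range a')).inv_mem_of_algebraic (x := ⟨x, hx trivial⟩)
        (Algebra.IsAlgebraic.isAlgebraic (R := L₁) (A := E) x)
    | mul x y _ _ hx hy => exact mul_mem (hx trivial) (hy trivial)
  have hspan : ⊤ ≤ Submodule.span L₁ (Set.range d) := by
    rw [← hadj, htop]
    exact le_rfl
  let c' := basisOfTopLeSpanOfCardEqFinrank d hspan (by rw [Fintype.card_fin, hdeg'])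
  have hc' : ∀ i, c' i = a' (c i) := fun i => by
    rw [coe_basisOfTopLeSpanOfCardEqFinrank]
  show Algebra.norm L₁ (a' f) = a (Algebra.norm F f)
  rw [Algebra.norm_eq_matrix_det c, Algebra.norm_eq_matrix_det c', AlgHom.map_det]
  congr 1
  ext i j
  rw [AlgHom.mapMatrix_apply, Matrix.map_apply, Algebra.leftMulMatrix_eq_repr_mul,
    Algebra.leftMulMatrix_eq_repr_mul, hc', ← map_mul, hexp]
  have : ∑ i, (a (c.repr (f * c j) i)) • d i = ∑ i, (a (c.repr (f * c j) i)) • c' i :=
    Finset.sum_congr rfl fun i _ => by rw [hc']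
  rw [this, c'.repr_sum_self]

variable (ha : a.toRingHom.IsIntegral) (hb : b.toRingHom.IsIntegral)
  (ha' : a'.toRingHom.IsIntegral) (hb' : b'.toRingHom.IsIntegral)

/-- Base change formula `a^* b_* = b'_* a'^*` for divisors. -/
theorem pullback_pushforward [HasPrincipalDivisors K L₁] [HasPrincipalDivisors K L₂]
    [HasPrincipalDivisors K E]
    (hcomm : ∀ x, b' (a x) = a' (b x))
    (hfb : FiniteAlong K b) (hfb' : FiniteAlong K b')
    (hNb : NormFormulaAlong K b hfb) (hNb' : NormFormulaAlong K b' hfb')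
    (hnorm : ∀ f : L₂, normAlong b' (a' f) = a (normAlong b f))
    (D : Divisor K L₂) :
    Divisor.pullbackAlong a ha (Divisor.pushforwardAlong b hb D) =
      Divisor.pushforwardAlong b' hb' (Divisor.pullbackAlong a' ha' D) := by
  classical
  -- vanishing
  have hvanL : ∀ (D : Divisor K L₂) (w₁ : Place K L₁),
      (∀ w₂ : Place K L₂, w₂.restrictAlong b hb = w₁.restrictAlong a ha → D w₂ = 0) →
      Divisor.pullbackAlong a ha (Divisor.pushforwardAlong b hb D) w₁ = 0 := by
    intro D w₁ h
    rw [Divisor.pullbackAlong_apply, pushforwardAlong_apply_eq_zero b hb D _ h, mul_zero]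
  have hres : ∀ W : Place K E, (W.restrictAlong b' hb').restrictAlong a ha =
      (W.restrictAlong a' ha').restrictAlong b hb := by
    intro W
    ext x
    show b' (a x) ∈ W.toValuationSubring ↔ a' (b x) ∈ W.toValuationSubring
    rw [hcomm]
  have hvanR : ∀ (D : Divisor K L₂) (w₁ : Place K L₁),
      (∀ w₂ : Place K L₂, w₂.restrictAlong b hb = w₁.restrictAlong a ha → D w₂ = 0) →
      Divisor.pushforwardAlong b' hb' (Divisor.pullbackAlong a' ha' D) w₁ = 0 := by
    intro D w₁ h
    refine pushforwardAlong_apply_eq_zero b' hb' _ _ fun W hW => ?_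
    rw [Divisor.pullbackAlong_apply, h, mul_zero]
    rw [← hres, hW]
  refine Finsupp.ext fun w₁ => ?_
  -- choose a function with the same orders as `D` above `w₁|F`
  obtain ⟨f, hf0, hf⟩ := Approx.exists_ord_eq
    (Place.fiberAlong b hb (w₁.restrictAlong a ha)) (fun w => D w)
  obtain ⟨Df, hDf, -⟩ := HasPrincipalDivisors.exists_divisor (K := K) f hf0
  have hdiff : ∀ w₂ : Place K L₂, w₂.restrictAlong b hb = w₁.restrictAlong a ha →
      (D - Df) w₂ = 0 := by
    intro w₂ hw
    rw [Finsupp.sub_apply, hDf, hf w₂ (Place.mem_fiberAlong.mpr hw), sub_self]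
  have h1 := hvanL (D - Df) w₁ hdiff
  have h2 := hvanR (D - Df) w₁ hdiff
  rw [map_sub, map_sub, Finsupp.sub_apply, sub_eq_zero] at h1 h2
  rw [h1, h2]
  rw [Divisor.pullbackAlong_apply, pushforwardAlong_apply_eq_ord b hb hfb hNb hf0 hDf,
    ← Place.ord_restrictAlong a ha]
  have hf0' : a' f ≠ 0 := (map_ne_zero a').mpr hf0
  have hD' : ∀ W, Divisor.pullbackAlong a' ha' Df W = W.ord (a' f) := by
    intro W
    rw [Divisor.pullbackAlong_apply, hDf, ← Place.ord_restrictAlong a' ha']
  rw [pushforwardAlong_apply_eq_ord b' hb' hfb' hNb' hf0' hD', hnorm]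

end BaseChange

end Fermat.Agent.Jan.PushPull
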