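import Mathlib
import Fermat.Agent.Jan.PushPull
import Fermat.Agent.Jan.HeckeInputs
import Fermat.Agent.Gamma0Count
import Fermat.Prelude.Thm_ModularCurve_coeffMap_qExpand

set_option autoImplicit false
set_option linter.unusedSectionVars false

noncomputable section

/-!
# Commutation of the Hecke operators on `JZero N`

`HeckeOperatorsCommuteBar N`, from the base change formula of `PushPull`, the algebraicity of
`j(dτ)` (`JAlg`), the degree formula for `F_{Nℓ} / F_N` (`AlphaDegree`) and the generation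
`F_N = L(j(q), j(q^N))` (`FunctionFieldGeneration`).
-/

open AlgebraicCurve ModularCurve

namespace Fermat.Agent.Jan.HeckeCommute

open Fermat.FF Fermat.Agent.Jan.HeckeInputs Fermat.Agent.Jan.RelFundamental
  Fermat.Agent.Jan.PushPull

section Degen

variable (L : Type*) [Field L] [Algebra ℚ L]

theorem laurentBaseChange_mono {F₀ F₁ : IntermediateField ℚ (LaurentSeries ℚ)}
    (h : F₀ ≤ F₁) : laurentBaseChange L F₀ ≤ laurentBaseChange L F₁ := by
  rw [laurentBaseChange, IntermediateField.adjoin_le_iff]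
  rintro _ ⟨y, hy, rfl⟩
  exact coeffEmb_mem_laurentBaseChange L (h hy)

theorem qExpand_mem {N M d : ℕ} [NeZero N] [NeZero M] [NeZero d] (h : N * d ∣ M)
    {x : LaurentSeries L} (hx : x ∈ laurentBaseChange L (modularFunctionFieldFull N)) :
    qExpand L d x ∈ laurentBaseChange L (modularFunctionFieldFull M) := by
  have h1 : qExpand L d x ∈ laurentBaseChange L (modularFunctionFieldFull (N * d)) :=
    (heckeBetaBar L N d ⟨x, hx⟩).2
  have : NeZero (N * d) := ⟨Nat.mul_ne_zero (NeZero.ne N) (NeZero.ne d)⟩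
  exact laurentBaseChange_mono L (full_degeneracy_le h) h1

/-- The degeneracy map `x(q) ↦ x(q ^ d)` from level `N` to level `M`, when `N * d ∣ M`. -/
def degen (N M d : ℕ) [NeZero N] [NeZero M] [NeZero d] (h : N * d ∣ M) :
    laurentBaseChange L (modularFunctionFieldFull N) →ₐ[L]
      laurentBaseChange L (modularFunctionFieldFull M) where
  toFun x := ⟨qExpand L d (x : LaurentSeries L), qExpand_mem L h x.2⟩
  map_one' := Subtype.ext (map_one (qExpand L d))
  map_mul' _ _ := Subtype.ext (map_mul (qExpand L d) _ _)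
  map_zero' := Subtype.ext (map_zero (qExpand L d))
  map_add' _ _ := Subtype.ext (map_add (qExpand L d) _ _)
  commutes' := fun a => Subtype.ext <| by
      show qExpand L d (algebraMap L (LaurentSeries L) a) = algebraMap L (LaurentSeries L) a
      rw [ModularCurve.algebraMap_laurentSeries_eq_single, qExpand_single, mul_zero]

@[simp]
theorem coe_degen (N M d : ℕ) [NeZero N] [NeZero M] [NeZero d] (h : N * d ∣ M)
    (x : laurentBaseChange L (modularFunctionFieldFull N)) :
    (degen L N M d h x : LaurentSeries L) = qExpand L d (x : LaurentSeries L) := rfl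

theorem degen_comp (N N' M d d' : ℕ) [NeZero N] [NeZero N'] [NeZero M] [NeZero d] [NeZero d']
    [NeZero (d' * d)] (h : N * d ∣ N') (h' : N' * d' ∣ M) (h'' : N * (d' * d) ∣ M) :
    (degen L N' M d' h').comp (degen L N N' d h) = degen L N M (d' * d) h'' := by
  refine AlgHom.ext fun x => Subtype.ext ?_
  show qExpand L d' (qExpand L d (x : LaurentSeries L)) = qExpand L (d' * d) (x : LaurentSeries L)
  rw [qExpand_qExpand]

theorem degen_congr (N M d d' : ℕ) [NeZero N] [NeZero M] [NeZero d] [NeZero d']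
    (hd : d = d') (h : N * d ∣ M) (h' : N * d' ∣ M) : degen L N M d h = degen L N M d' h' := by
  refine AlgHom.ext fun x => Subtype.ext ?_
  exact qExpand_congr hd _

theorem heckeAlphaBar_eq_degen (N ℓ : ℕ) [NeZero N] [NeZero ℓ] :
    heckeAlphaBar L N ℓ = degen L N (N * ℓ) 1 (by rw [mul_one]; exact dvd_mul_right _ _) := by
  refine AlgHom.ext fun x => Subtype.ext ?_
  rw [coe_degen, qExpand_one_apply]
  exact coe_heckeAlphaBar N ℓ x

theorem heckeBetaBar_eq_degen (N ℓ : ℕ) [NeZero N] [NeZero ℓ] :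
    heckeBetaBar L N ℓ = degen L N (N * ℓ) ℓ dvd_rfl := by
  refine AlgHom.ext fun x => Subtype.ext ?_
  rfl

end Degen

section Inputs

variable (L : Type*) [Field L] [Algebra ℚ L]

/-- Input: degree of `F_{Nℓ}` over `F_N`, `ℓ` prime. -/
def AlphaDegree : Prop :=
  ∀ (N ℓ : ℕ) [NeZero N] [NeZero ℓ], ℓ.Prime →
    finrankAlong L (heckeAlphaBar L N ℓ) = if ℓ ∣ N then ℓ else ℓ + 1

/-- Input: degree of `F_N` over `F_1 = L(j)`. -/
def PsiDegree : Prop :=
  ∀ (N : ℕ) [NeZero N],
    finrankAlong L (degen L 1 N 1 (by rw [mul_one]; exact one_dvd N)) = dedekindPsi N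

/-- Input: `F_N = ℚ(j(q), j(q^N))`. -/
def Generation : Prop := ∀ (N : ℕ) [NeZero N], FunctionFieldGeneration N

theorem finrankAlong_comp {K F F' F'' : Type*} [Field K] [Field F] [Field F'] [Field F'']
    [Algebra K F] [Algebra K F'] [Algebra K F''] (φ : F →ₐ[K] F') (ψ : F' →ₐ[K] F'') :
    finrankAlong K (ψ.comp φ) = finrankAlong K φ * finrankAlong K ψ := by
  let _ : Algebra F F' := algebraAlong φ
  let _ : Algebra F' F'' := algebraAlong ψ
  let _ : Algebra F F'' := algebraAlong (ψ.comp φ)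
  have _ : IsScalarTower F F' F'' := IsScalarTower.of_algebraMap_eq fun _ => rfl
  exact (Module.finrank_mul_finrank F F' F'').symm

theorem dedekindPsi_mul_prime (N ℓ : ℕ) (hN : N ≠ 0) (hℓ : ℓ.Prime) :
    dedekindPsi (N * ℓ) = dedekindPsi N * (if ℓ ∣ N then ℓ else ℓ + 1) := by
  obtain ⟨e, m, hm, rfl⟩ := Nat.exists_eq_pow_mul_and_not_dvd hN ℓ hℓ.ne_one
  have hcop : ∀ k, (ℓ ^ k).Coprime m := fun k =>
    Nat.Coprime.pow_left k ((Nat.Prime.coprime_iff_not_dvd hℓ).mpr hm)
  have h1 : ℓ ^ e * m * ℓ = ℓ ^ (e + 1) * m := by ring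
  rw [h1, Gamma0Count.dedekindPsi_mul (hcop _), Gamma0Count.dedekindPsi_mul (hcop _),
    Gamma0Count.dedekindPsi_prime_pow hℓ]
  rcases e with _ | e
  · have h2 : ¬ ℓ ∣ ℓ ^ 0 * m := by simpa using hm
    rw [if_neg h2, zero_add, pow_one, pow_zero, dedekindPsi_one]
    ring
  · have h2 : ℓ ∣ ℓ ^ (e + 1) * m := (dvd_pow_self ℓ (by omega)).mul_right m
    rw [if_pos h2, Gamma0Count.dedekindPsi_prime_pow hℓ]
    ring

theorem dedekindPsi_pos (N : ℕ) [NeZero N] : 0 < dedekindPsi N := by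
  rw [dedekindPsi]
  refine Finset.sum_pos' (fun _ _ => Nat.zero_le _) ⟨1, ?_, ?_⟩
  · rw [Finset.mem_filter, Nat.mem_divisors]
    exact ⟨⟨one_dvd _, NeZero.ne N⟩, squarefree_one⟩
  · rw [Nat.div_one]
    exact Nat.pos_of_ne_zero (NeZero.ne N)

theorem alphaDegree_of_psiDegree (h : PsiDegree L) : AlphaDegree L := by
  intro N ℓ _ _ hℓ
  have h1 := h N
  have h2 := h (N * ℓ)
  have h3 : (heckeAlphaBar L N ℓ).comp (degen L 1 N 1 (by rw [mul_one]; exact one_dvd N)) =
      degen L 1 (N * ℓ) 1 (by rw [mul_one]; exact one_dvd _) := by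
    rw [heckeAlphaBar_eq_degen]
    exact degen_comp L 1 N (N * ℓ) 1 1 _ _ _
  rw [← h3, finrankAlong_comp, h1, dedekindPsi_mul_prime N ℓ (NeZero.ne N) hℓ] at h2
  exact Nat.eq_of_mul_eq_mul_left (dedekindPsi_pos N) h2

end Inputs

section Commute

variable (L : Type*) [Field L] [Algebra ℚ L] [IsAlgClosed L]

variable {N ℓ ℓ' M : ℕ} [NeZero N] [NeZero ℓ] [NeZero ℓ'] [NeZero M]

/-- generation of `F_M` by the two degeneracy images -/
theorem mem_closure_of_generation (hM : N * ℓ * ℓ' = M) (hgen : FunctionFieldGeneration M)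
    (h1 : N * ℓ * 1 ∣ M) (h2 : N * ℓ' * ℓ ∣ M)
    (x : laurentBaseChange L (modularFunctionFieldFull M)) :
    x ∈ Subfield.closure (Set.range (degen L (N * ℓ) M 1 h1) ∪
      Set.range (degen L (N * ℓ') M ℓ h2)) := by
  set S : Subfield (laurentBaseChange L (modularFunctionFieldFull M)) :=
    Subfield.closure (Set.range (degen L (N * ℓ) M 1 h1) ∪
      Set.range (degen L (N * ℓ') M ℓ h2)) with hS
  set T : Subfield (LaurentSeries L) := S.map
    (algebraMap (laurentBaseChange L (modularFunctionFieldFull M)) (LaurentSeries L)) with hT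
  have hTS : ∀ y : laurentBaseChange L (modularFunctionFieldFull M),
      (y : LaurentSeries L) ∈ T → y ∈ S := by
    rintro y ⟨z, hz, hzy⟩
    have : z = y := Subtype.ext hzy
    rwa [← this]
  -- constants
  have hconst : ∀ c : L, algebraMap L (LaurentSeries L) c ∈ T := by
    intro c
    refine ⟨algebraMap L _ c, Subfield.subset_closure (Or.inl ⟨algebraMap L _ c, ?_⟩), rfl⟩
    exact (degen L (N * ℓ) M 1 h1).commutes c
  -- the generators
  have hj1 : coeffEmb L jq ∈ T := by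
    have hmem : coeffEmb L jq ∈ laurentBaseChange L (modularFunctionFieldFull (N * ℓ)) := by
      refine coeffEmb_mem_laurentBaseChange L ?_
      have h := jqd_mem_full (N * ℓ) (one_dvd _)
      rwa [qExpand_one_apply] at h
    refine ⟨degen L (N * ℓ) M 1 h1 ⟨_, hmem⟩,
      Subfield.subset_closure (Or.inl ⟨⟨_, hmem⟩, rfl⟩), ?_⟩
    exact qExpand_one_apply _
  have hj2 : coeffEmb L (qExpand ℚ M jq) ∈ T := by
    have hmem : coeffEmb L (qExpand ℚ (N * ℓ') jq) ∈
        laurentBaseChange L (modularFunctionFieldFull (N * ℓ')) :=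
      coeffEmb_mem_laurentBaseChange L (jqd_mem_full (N * ℓ') dvd_rfl)
    refine ⟨degen L (N * ℓ') M ℓ h2 ⟨_, hmem⟩,
      Subfield.subset_closure (Or.inr ⟨⟨_, hmem⟩, rfl⟩), ?_⟩
    show qExpand L ℓ (coeffEmb L (qExpand ℚ (N * ℓ') jq)) = coeffEmb L (qExpand ℚ M jq)
    have h3 : ∀ (n : ℕ) [NeZero n] (y : LaurentSeries ℚ),
        coeffEmb L (qExpand ℚ n y) = qExpand L n (coeffEmb L y) := fun n _ y =>
      coeffMap_qExpand _ n y
    rw [h3, h3, qExpand_qExpand]
    exact qExpand_congr (by rw [← hM]; ring) _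
  -- everything coming from level `M` over `ℚ`
  have hQ : ∀ y ∈ modularFunctionFieldFull M, coeffEmb L y ∈ T := by
    intro y hy
    have hle : modularFunctionFieldFull M ≤ IntermediateField.adjoin ℚ {jq, qExpand ℚ M jq} := by
      rw [modularFunctionFieldFull, IntermediateField.adjoin_le_iff]
      rintro _ ⟨d, hd0, hd, rfl⟩
      exact hgen d hd hd0
    have hy' := hle hy
    clear hy
    induction hy' using IntermediateField.adjoin_induction with
    | mem z hz =>
      rcases hz with rfl | rfl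
      · exact hj1
      · exact hj2
    | algebraMap c =>
      rw [coeffEmb_algebraMap]
      exact hconst _
    | add a b ha hb iha ihb =>
      rw [map_add]
      exact add_mem iha ihb
    | inv a ha iha =>
      rw [map_inv₀]
      exact inv_mem iha
    | mul a b ha hb iha ihb =>
      rw [map_mul]
      exact mul_mem iha ihb
  refine hTS x ?_
  have hx' := mem_laurentBaseChange_iff.mp x.2
  have hle : Subfield.closure (Set.range (algebraMap L (LaurentSeries L)) ∪
      (⇑(coeffEmb L) '' (modularFunctionFieldFull M : Set (LaurentSeries ℚ)))) ≤ T := by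
    rw [Subfield.closure_le]
    rintro _ (⟨c, rfl⟩ | ⟨z, hz, rfl⟩)
    · exact hconst c
    · exact hQ z hz
  exact hle hx'

theorem degen_integral (hJ : JAlg) (N M d : ℕ) [NeZero N] [NeZero M] [NeZero d] (h : N * d ∣ M) :
    (degen L N M d h).toRingHom.IsIntegral := by
  have := isFF1_modular L hJ N
  have := isFF1_modular L hJ M
  exact isIntegral_of_finite _ (finiteAlong _)

/-- base change formula for the modular square -/
theorem modular_baseChange (hJ : JAlg) (hM : N * ℓ * ℓ' = M) (hgen : FunctionFieldGeneration M)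
    [HasPrincipalDivisors L (laurentBaseChange L (modularFunctionFieldFull (N * ℓ)))]
    [HasPrincipalDivisors L (laurentBaseChange L (modularFunctionFieldFull (N * ℓ')))]
    [HasPrincipalDivisors L (laurentBaseChange L (modularFunctionFieldFull M))]
    (h1 : N * ℓ * 1 ∣ M) (h2 : N * ℓ' * ℓ ∣ M)
    (hdeg : finrankAlong L (degen L (N * ℓ) M 1 h1) = finrankAlong L (heckeAlphaBar L N ℓ'))
    (hβ : (heckeBetaBar L N ℓ).toRingHom.IsIntegral)
    (hα' : (heckeAlphaBar L N ℓ').toRingHom.IsIntegral)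
    (D : Divisor L (laurentBaseChange L (modularFunctionFieldFull (N * ℓ')))) :
    Divisor.pullbackAlong (heckeBetaBar L N ℓ) hβ
      (Divisor.pushforwardAlong (heckeAlphaBar L N ℓ') hα' D) =
    Divisor.pushforwardAlong (degen L (N * ℓ) M 1 h1) (degen_integral L hJ _ _ _ h1)
      (Divisor.pullbackAlong (degen L (N * ℓ') M ℓ h2)
        (degen_integral L hJ _ _ _ h2) D) := by
  have := isFF1_modular L hJ N
  have := isFF1_modular L hJ M
  have := isFF1_modular L hJ (N * ℓ)
  have := isFF1_modular L hJ (N * ℓ')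
  have : CharZero L := charZero_of_injective_algebraMap (algebraMap ℚ L).injective
  have hcomm : ∀ x, degen L (N * ℓ) M 1 h1 (heckeBetaBar L N ℓ x) =
      degen L (N * ℓ') M ℓ h2 (heckeAlphaBar L N ℓ' x) := by
    intro x
    refine Subtype.ext ?_
    rw [coe_degen, coe_degen, coe_heckeBetaBar, coe_heckeAlphaBar, qExpand_one_apply]
  have hfb : FiniteAlong L (heckeAlphaBar L N ℓ') := finiteAlong _
  have hfb' : FiniteAlong L (degen L (N * ℓ) M 1 h1) := finiteAlong _
  have hnorm := normAlong_baseChange (heckeBetaBar L N ℓ) (heckeAlphaBar L N ℓ')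
    (degen L (N * ℓ') M ℓ h2) (degen L (N * ℓ) M 1 h1) hcomm hfb hfb' hdeg
    (mem_closure_of_generation L hM hgen h1 h2)
  exact pullback_pushforward (heckeBetaBar L N ℓ) (heckeAlphaBar L N ℓ')
    (degen L (N * ℓ') M ℓ h2) (degen L (N * ℓ) M 1 h1) hβ hα'
    (degen_integral L hJ _ _ _ h2) (degen_integral L hJ _ _ _ h1) hcomm hfb hfb'
    (normFormulaAlong _ _) (normFormulaAlong _ _) hnorm D

/-- The composite of two Hecke correspondences at different primes, on divisors. -/
theorem correspondence_comp (hJ : JAlg) (hM : N * ℓ * ℓ' = M) (hgen : FunctionFieldGeneration M)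
    (d : ℕ) [NeZero d] (hd : ℓ * ℓ' = d)
    [HasPrincipalDivisors L (laurentBaseChange L (modularFunctionFieldFull (N * ℓ)))]
    [HasPrincipalDivisors L (laurentBaseChange L (modularFunctionFieldFull (N * ℓ')))]
    [HasPrincipalDivisors L (laurentBaseChange L (modularFunctionFieldFull M))]
    (h1 : N * ℓ * 1 ∣ M) (h2 : N * ℓ' * ℓ ∣ M) (h3 : N * 1 ∣ M) (h4 : N * d ∣ M)
    (hdeg : finrankAlong L (degen L (N * ℓ) M 1 h1) = finrankAlong L (heckeAlphaBar L N ℓ'))
    (hβ : (heckeBetaBar L N ℓ).toRingHom.IsIntegral)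
    (hα : (heckeAlphaBar L N ℓ).toRingHom.IsIntegral)
    (hβ' : (heckeBetaBar L N ℓ').toRingHom.IsIntegral)
    (hα' : (heckeAlphaBar L N ℓ').toRingHom.IsIntegral)
    (D : Divisor L (laurentBaseChange L (modularFunctionFieldFull N))) :
    Divisor.correspondence (heckeBetaBar L N ℓ) (heckeAlphaBar L N ℓ) hβ hα
      (Divisor.correspondence (heckeBetaBar L N ℓ') (heckeAlphaBar L N ℓ') hβ' hα' D) =
    Divisor.pushforwardAlong (degen L N M 1 h3) (degen_integral L hJ N M 1 h3)
      (Divisor.pullbackAlong (degen L N M d h4) (degen_integral L hJ N M d h4) D) := by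
  have := isFF1_modular L hJ M
  have : CharZero L := charZero_of_injective_algebraMap (algebraMap ℚ L).injective
  have hc1 : (degen L (N * ℓ) M 1 h1).comp (heckeAlphaBar L N ℓ) = degen L N M 1 h3 := by
    refine AlgHom.ext fun x => Subtype.ext ?_
    show qExpand L 1 ((heckeAlphaBar L N ℓ x : _) : LaurentSeries L) =
      qExpand L 1 (x : LaurentSeries L)
    rw [coe_heckeAlphaBar]
  have hc2 : (degen L (N * ℓ') M ℓ h2).comp (heckeBetaBar L N ℓ') =
      degen L N M d h4 := by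
    refine AlgHom.ext fun x => Subtype.ext ?_
    show qExpand L ℓ (qExpand L ℓ' (x : LaurentSeries L)) =
      qExpand L d (x : LaurentSeries L)
    have : NeZero (ℓ * ℓ') := ⟨Nat.mul_ne_zero (NeZero.ne ℓ) (NeZero.ne ℓ')⟩
    rw [qExpand_qExpand]
    exact qExpand_congr hd _
  exact correspondence_correspondence _ _ _ _ _ _ _ _ hβ hα hβ' hα'
    (degen_integral L hJ _ _ _ h2) (degen_integral L hJ _ _ _ h1)
    (degen_integral L hJ _ _ _ h3) (degen_integral L hJ _ _ _ h4) hc1 hc2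
    (fun w => deg_eq_one w) (modular_baseChange L hJ hM hgen h1 h2 hdeg hβ hα') D

/-- degree of the inclusion `F_{Nℓ} → F_M`, `M = N ℓ ℓ'`. -/
theorem finrank_degen (hdeg : AlphaDegree L) (hM : N * ℓ * ℓ' = M) (hℓ : ℓ.Prime)
    (hℓ' : ℓ'.Prime) (hne : ℓ ≠ ℓ') (h1 : N * ℓ * 1 ∣ M) :
    finrankAlong L (degen L (N * ℓ) M 1 h1) = finrankAlong L (heckeAlphaBar L N ℓ') := by
  subst hM
  have h2 := hdeg (N * ℓ) ℓ' hℓ'
  have h3 := hdeg N ℓ' hℓ'
  rw [heckeAlphaBar_eq_degen] at h2
  rw [h2, h3]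
  have : ℓ' ∣ N * ℓ ↔ ℓ' ∣ N := by
    rw [hℓ'.dvd_mul]
    constructor
    · rintro (h | h)
      · exact h
      · exact absurd ((Nat.prime_dvd_prime_iff_eq hℓ' hℓ).mp h).symm hne
    · exact Or.inl
  simp only [this]

/-- Hecke operators commute on `Pic⁰`. -/
theorem heckeOperatorAlong_comm (hJ : JAlg) (hgen : Generation) (hdeg : AlphaDegree L)
    (hℓ : ℓ.Prime) (hℓ' : ℓ'.Prime)
    (x : Pic0 L (laurentBaseChange L (modularFunctionFieldFull N))) :
    heckeOperatorAlong L N ℓ (heckeOperatorAlong L N ℓ' x) =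
      heckeOperatorAlong L N ℓ' (heckeOperatorAlong L N ℓ x) := by
  by_cases hne : ℓ = ℓ'
  · subst hne
    rfl
  have i1 := hasPrincipalDivisors_modular L hJ (N * ℓ)
  have i2 := hasPrincipalDivisors_modular L hJ (N * ℓ')
  have : NeZero (N * ℓ * ℓ') := ⟨Nat.mul_ne_zero (NeZero.ne _) (NeZero.ne _)⟩
  have : NeZero (ℓ * ℓ') := ⟨Nat.mul_ne_zero (NeZero.ne _) (NeZero.ne _)⟩
  have i3 := hasPrincipalDivisors_modular L hJ (N * ℓ * ℓ')
  obtain ⟨hα, hβ, hP, hfin, hFI, hN⟩ := heckeInputsAlong L N ℓ hJ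
  obtain ⟨hα', hβ', hP', hfin', hFI', hN'⟩ := heckeInputsAlong L N ℓ' hJ
  rw [heckeOperatorAlong_eq hα hβ hFI hfin hN, heckeOperatorAlong_eq hα' hβ' hFI' hfin' hN']
  obtain ⟨D, rfl⟩ := Pic0.mk_surjective x
  have e1 : heckePic0Bar hα hβ hFI hfin hN (heckePic0Bar hα' hβ' hFI' hfin' hN' (Pic0.mk D)) =
      Pic0.mk (Pic0.degZeroCorrespondence (heckeBetaBar L N ℓ) (heckeAlphaBar L N ℓ) hβ hα hFI
        (Pic0.degZeroCorrespondence (heckeBetaBar L N ℓ') (heckeAlphaBar L N ℓ') hβ' hα' hFI' D)) :=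
    rfl
  have e2 : heckePic0Bar hα' hβ' hFI' hfin' hN' (heckePic0Bar hα hβ hFI hfin hN (Pic0.mk D)) =
      Pic0.mk (Pic0.degZeroCorrespondence (heckeBetaBar L N ℓ') (heckeAlphaBar L N ℓ') hβ' hα' hFI'
        (Pic0.degZeroCorrespondence (heckeBetaBar L N ℓ) (heckeAlphaBar L N ℓ) hβ hα hFI D)) :=
    rfl
  rw [e1, e2]
  refine congrArg Pic0.mk (Subtype.ext ?_)
  have hd1 : N * ℓ * 1 ∣ N * ℓ * ℓ' := by rw [mul_one]; exact dvd_mul_right _ _
  have hd1' : N * ℓ' * 1 ∣ N * ℓ * ℓ' := by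
    rw [mul_one, mul_right_comm]; exact dvd_mul_right _ _
  have hd2 : N * ℓ' * ℓ ∣ N * ℓ * ℓ' := by rw [mul_right_comm]
  have hd2' : N * ℓ * ℓ' ∣ N * ℓ * ℓ' := dvd_rfl
  have hd3 : N * 1 ∣ N * ℓ * ℓ' := by rw [mul_one, mul_assoc]; exact dvd_mul_right _ _
  have hd4 : N * (ℓ * ℓ') ∣ N * ℓ * ℓ' := by rw [mul_assoc]
  have hM' : N * ℓ' * ℓ = N * ℓ * ℓ' := by ring
  have c1 := correspondence_comp L hJ rfl (hgen (N * ℓ * ℓ')) (ℓ * ℓ') rfl hd1 hd2 hd3 hd4
    (finrank_degen L hdeg rfl hℓ hℓ' hne hd1) hβ hα hβ' hα' (D : Divisor L _)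
  have c2 := correspondence_comp L hJ hM' (hgen (N * ℓ * ℓ')) (ℓ * ℓ') (mul_comm _ _) hd1' hd2'
    hd3 hd4 (finrank_degen L hdeg hM' hℓ' hℓ (Ne.symm hne) hd1') hβ' hα' hβ hα (D : Divisor L _)
  exact c1.trans c2.symm

end Commute

/-- `HeckeOperatorsCommuteBar N` from the standard facts on the function field of `X₀(N)`. -/
theorem heckeOperatorsCommuteBar (hJ : JAlg) (hgen : Generation)
    (hdeg : AlphaDegree (AlgebraicClosure ℚ)) (N : ℕ) [NeZero N] :
    HeckeOperatorsCommuteBar N := by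
  intro ℓ ℓ'
  refine LinearMap.ext fun x => ?_
  have : NeZero (ℓ : ℕ) := ⟨ℓ.2.ne_zero⟩
  have : NeZero (ℓ' : ℕ) := ⟨ℓ'.2.ne_zero⟩
  exact heckeOperatorAlong_comm (AlgebraicClosure ℚ) hJ hgen hdeg ℓ.2 ℓ'.2 x

end Fermat.Agent.Jan.HeckeCommute
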