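import Mathlib
import Fermat.Agent.Jan.HeckeCommute
import Fermat.Agent.FunField.Alg

/-!
# Degrees along the degeneracy maps in terms of `[F_N : L(j)]`

* `jAlg : JAlg` (from `FunField.isAlgebraic_qExpand_jq`), hence the unconditional versions of
  `HeckeInputs.heckeInputsAlong` etc.;
* `finrankAlong_degen_one`: `finrankAlong` of `F_1 → F_N` is `[F_N : L(j)]`;
* `psiDegree_of_finrank`.
-/

set_option autoImplicit false

noncomputable section

open AlgebraicCurve IntermediateField ModularCurve Fermat.FF

namespace Fermat.Agent.Jan.DegreeWiring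

open Fermat.Agent.Jan.HeckeInputs Fermat.Agent.Jan.HeckeCommute

/-- Each `j(q^d)` is algebraic over `ℚ(j)`. -/
theorem jAlg : JAlg := fun d _ => Fermat.Agent.FunField.isAlgebraic_qExpand_jq d

section General

variable {K F F' : Type*} [Field K] [Field F] [Field F'] [Algebra K F] [Algebra K F']

theorem finrankAlong_eq_finrank_fieldRange (φ : F →ₐ[K] F') :
    finrankAlong K φ = Module.finrank φ.fieldRange F' := by
  let _ : Algebra F F' := algebraAlong φ
  show Module.finrank F F' = _
  let e : F ≃+* φ.fieldRange := (AlgEquiv.ofInjectiveField φ).toRingEquiv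
  exact Algebra.finrank_eq_of_equiv_equiv e (RingEquiv.refl F') (by ext x; rfl)

end General

variable (L : Type*) [Field L] [Algebra ℚ L]

/-- `j` as an element of `F_N(L)`. -/
def jEl (N : ℕ) : laurentBaseChange L (modularFunctionFieldFull N) :=
  ⟨coeffEmb L jq,
    coeffEmb_mem_laurentBaseChange _ (by simpa [qExpand_one_apply] using jqd_mem_full N (one_dvd N))⟩

variable (N : ℕ) [NeZero N]

theorem fieldRange_degen_one :
    (degen L 1 N 1 (by rw [mul_one]; exact one_dvd N)).fieldRange = L⟮jEl L N⟯ := by
  apply le_antisymm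
  · rintro _ ⟨x, rfl⟩
    have hle : laurentBaseChange L (modularFunctionFieldFull 1) ≤ L⟮coeffEmb L jq⟯ := by
      rw [laurentBaseChange_full_eq]
      refine IntermediateField.adjoin_le_iff.mpr ?_
      rintro _ ⟨z, ⟨d, hd0, hd, rfl⟩, rfl⟩
      have hd1 : d = 1 := Nat.dvd_one.mp hd
      subst hd1
      rw [qExpand_one_apply]
      exact IntermediateField.mem_adjoin_simple_self _ _
    have hx : (x : LaurentSeries L) ∈ L⟮coeffEmb L jq⟯ := hle x.2
    have hx' : (x : LaurentSeries L) ∈ (L⟮jEl L N⟯).map
        (laurentBaseChange L (modularFunctionFieldFull N)).val := by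
      rw [IntermediateField.adjoin_map, Set.image_singleton]
      exact hx
    obtain ⟨y, hy, hyx⟩ := hx'
    have : degen L 1 N 1 (by rw [mul_one]; exact one_dvd N) x = y := by
      apply Subtype.ext
      rw [coe_degen, qExpand_one_apply]
      exact hyx.symm
    rw [show (degen L 1 N 1 (by rw [mul_one]; exact one_dvd N)).toRingHom x =
      degen L 1 N 1 (by rw [mul_one]; exact one_dvd N) x from rfl, this]
    exact hy
  · rw [IntermediateField.adjoin_simple_le_iff]
    refine ⟨jEl L 1, ?_⟩
    apply Subtype.ext
    show qExpand L 1 (coeffEmb L jq) = coeffEmb L jq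
    rw [qExpand_one_apply]

/-- The degree along `F_1 → F_N` is `[F_N : L(j)]`. -/
theorem finrankAlong_degen_one :
    finrankAlong L (degen L 1 N 1 (by rw [mul_one]; exact one_dvd N)) =
      Module.finrank L⟮jEl L N⟯ (laurentBaseChange L (modularFunctionFieldFull N)) := by
  rw [finrankAlong_eq_finrank_fieldRange, fieldRange_degen_one]

theorem psiDegree_of_finrank (h : ∀ (N : ℕ) [NeZero N],
    Module.finrank L⟮jEl L N⟯ (laurentBaseChange L (modularFunctionFieldFull N)) =
      dedekindPsi N) : PsiDegree L := fun N _ => by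
  rw [finrankAlong_degen_one]
  exact h N

/-- The function field of `X_0(N)` over `L` is a function field of one variable. -/
theorem isFF1_modular' : IsFF1 L (laurentBaseChange L (modularFunctionFieldFull N)) :=
  isFF1_modular L jAlg N

theorem hasPrincipalDivisors_modular' [IsAlgClosed L] :
    HasPrincipalDivisors L (laurentBaseChange L (modularFunctionFieldFull N)) :=
  hasPrincipalDivisors_modular L jAlg N

/-- `HeckeInputsAlong` holds: the prelude operators are the honest correspondences. -/
theorem heckeInputsAlong' [IsAlgClosed L] (ℓ : ℕ) [NeZero ℓ] : HeckeInputsAlong L N ℓ :=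
  heckeInputsAlong L N ℓ jAlg

theorem finiteAlong_heckeAlphaBar' (ℓ : ℕ) [NeZero ℓ] : FiniteAlong L (heckeAlphaBar L N ℓ) :=
  finiteAlong_heckeAlphaBar L N ℓ jAlg

theorem finiteAlong_heckeBetaBar' (ℓ : ℕ) [NeZero ℓ] : FiniteAlong L (heckeBetaBar L N ℓ) :=
  finiteAlong_heckeBetaBar L N ℓ jAlg

end Fermat.Agent.Jan.DegreeWiring
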