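import Mathlib
import Fermat.Agent.Jan.HeckeInputs

/-!
# Correspondences and norms of functions

`T (div f) = div (N_ψ (φ f))` for a correspondence `T = ψ_* φ^*` of function fields, and the
description of the prelude operator `heckeOperatorBar` on divisors.
-/

set_option autoImplicit false
set_option linter.unusedSectionVars false
set_option linter.style.haveILetI false

noncomputable section

open AlgebraicCurve ModularCurve Fermat.FF

namespace Fermat.Agent.Jan.HeckeNorm

open Fermat.Agent.Jan.RelFundamental Fermat.Agent.Jan.HeckeInputs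

section General

variable {K F F' : Type*} [Field K] [Field F] [Field F'] [Algebra K F] [Algebra K F']

/-- The norm along a `K`-algebra map of fields. -/
def normAlong (ψ : F →ₐ[K] F') : F' →* F :=
  letI := algebraAlong ψ
  Algebra.norm F

theorem normAlong_ne_zero (ψ : F →ₐ[K] F') (hfin : FiniteAlong K ψ) {f : F'} (hf : f ≠ 0) :
    normAlong ψ f ≠ 0 := by
  letI := algebraAlong ψ
  haveI : FiniteDimensional F F' := hfin
  exact Algebra.norm_ne_zero_iff.mpr hf

theorem normAlong_apply_self (ψ : F →ₐ[K] F') (x : F) :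
    normAlong ψ (ψ x) = x ^ finrankAlong K ψ := by
  letI := algebraAlong ψ
  exact Algebra.norm_algebraMap x

variable [HasPrincipalDivisors K F']

theorem pullbackAlong_eq_ord (φ : F →ₐ[K] F') (hφ : φ.toRingHom.IsIntegral) {D : Divisor K F}
    {f : F} (hD : ∀ v : Place K F, D v = v.ord f) (w : Place K F') :
    Divisor.pullbackAlong φ hφ D w = w.ord (φ f) := by
  letI := algebraAlong φ
  haveI := isScalarTower_along φ
  haveI := isIntegral_along φ hφ
  exact Divisor.pullback_apply_eq_ord hD w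

omit [HasPrincipalDivisors K F'] in
theorem pushforwardAlong_eq_ord (ψ : F →ₐ[K] F') (hψ : ψ.toRingHom.IsIntegral)
    (hfin : FiniteAlong K ψ) (hN : NormFormulaAlong K ψ hfin) {D : Divisor K F'}
    {f : F'} (hf : f ≠ 0) (hD : ∀ w : Place K F', D w = w.ord f) (v : Place K F) :
    Divisor.pushforwardAlong ψ hψ D v = v.ord (normAlong ψ f) := by
  letI := algebraAlong ψ
  haveI := isScalarTower_along ψ
  haveI : Module.Finite F F' := hfin
  exact hN f hf D hD v

/-- `T (div f) = div (N_ψ (φ f))`. -/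
theorem correspondence_eq_ord (φ ψ : F →ₐ[K] F') (hφ : φ.toRingHom.IsIntegral)
    (hψ : ψ.toRingHom.IsIntegral) (hfin : FiniteAlong K ψ) (hN : NormFormulaAlong K ψ hfin)
    {D : Divisor K F} {f : F} (hf : f ≠ 0) (hD : ∀ v : Place K F, D v = v.ord f)
    (v : Place K F) :
    Divisor.correspondence φ ψ hφ hψ D v = v.ord (normAlong ψ (φ f)) := by
  rw [Divisor.correspondence_apply]
  exact pushforwardAlong_eq_ord ψ hψ hfin hN ((map_ne_zero φ).mpr hf)
    (fun w => pullbackAlong_eq_ord φ hφ hD w) v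

/-- If `n D = div f` then `n T D = div (N_ψ (φ f))`. -/
theorem nsmul_correspondence_eq_ord (φ ψ : F →ₐ[K] F') (hφ : φ.toRingHom.IsIntegral)
    (hψ : ψ.toRingHom.IsIntegral) (hfin : FiniteAlong K ψ) (hN : NormFormulaAlong K ψ hfin)
    {D : Divisor K F} {f : F} (hf : f ≠ 0) {n : ℤ} (hD : ∀ v : Place K F, n * D v = v.ord f)
    (v : Place K F) :
    n * Divisor.correspondence φ ψ hφ hψ D v = v.ord (normAlong ψ (φ f)) := by
  have h := correspondence_eq_ord φ ψ hφ hψ hfin hN (D := n • D) hf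
    (fun v => by rw [Finsupp.smul_apply, smul_eq_mul]; exact hD v) v
  rw [← h, map_zsmul, Finsupp.smul_apply, smul_eq_mul]

/-- If `n` divides all orders of `f` then `n` divides all orders of `N_ψ (φ f)`. -/
theorem dvd_ord_normAlong (φ ψ : F →ₐ[K] F') (hφ : φ.toRingHom.IsIntegral)
    (hψ : ψ.toRingHom.IsIntegral) (hfin : FiniteAlong K ψ) (hN : NormFormulaAlong K ψ hfin)
    [HasPrincipalDivisors K F] {f : F} (hf : f ≠ 0) {n : ℤ} (hn : ∀ v : Place K F, n ∣ v.ord f)
    (v : Place K F) : n ∣ v.ord (normAlong ψ (φ f)) := by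
  obtain ⟨D, hD, -⟩ := HasPrincipalDivisors.exists_divisor (K := K) f hf
  have hmap : ∀ v, n * (D.mapRange (fun m => m / n) (by simp)) v = v.ord f := by
    intro v
    rw [Finsupp.mapRange_apply, hD v, Int.mul_ediv_cancel' (hn v)]
  exact ⟨_, (nsmul_correspondence_eq_ord φ ψ hφ hψ hfin hN hf hmap v).symm⟩

end General

section Modular

variable (hJ : JAlg) (N : ℕ) [NeZero N] (ℓ : Nat.Primes)

include hJ in
/-- The prelude Hecke operator is the honest correspondence `α_* β^*` on divisor classes. -/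
theorem heckeOperatorBar_mk (D : Divisor.degZero (K := AlgebraicClosure ℚ)
    (F := modularFunctionFieldBar N)) :
    haveI : NeZero (ℓ : ℕ) := ⟨ℓ.2.ne_zero⟩
    haveI := hasPrincipalDivisors_modular (AlgebraicClosure ℚ) hJ (N * ℓ)
    ∃ h, heckeOperatorBar N ℓ (Pic0.mk D) =
      Pic0.mk ⟨heckeDivBar (heckeAlphaBarIntegral (AlgebraicClosure ℚ) N ℓ hJ)
        (heckeBetaBarIntegral (AlgebraicClosure ℚ) N ℓ hJ) D, h⟩ := by
  haveI : NeZero (ℓ : ℕ) := ⟨ℓ.2.ne_zero⟩
  haveI := hasPrincipalDivisors_modular (AlgebraicClosure ℚ) hJ (N * ℓ)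
  haveI := isFF1_modular (AlgebraicClosure ℚ) hJ N
  have hFI := fundamentalIdentityAlong (heckeBetaBar (AlgebraicClosure ℚ) N ℓ)
    (heckeBetaBarIntegral (AlgebraicClosure ℚ) N ℓ hJ)
    (finiteAlong_heckeBetaBar (AlgebraicClosure ℚ) N ℓ hJ)
  have hfin := finiteAlong_heckeAlphaBar (AlgebraicClosure ℚ) N ℓ hJ
  have hN := normFormulaAlong (heckeAlphaBar (AlgebraicClosure ℚ) N ℓ) hfin
  refine ⟨Divisor.correspondence_mem_degZero _ _ _ _ hFI D.2, ?_⟩
  rw [heckeOperatorBar_apply, heckeOperatorAlong_eq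
    (heckeAlphaBarIntegral (AlgebraicClosure ℚ) N ℓ hJ)
    (heckeBetaBarIntegral (AlgebraicClosure ℚ) N ℓ hJ) hFI hfin hN]
  rfl

end Modular

end Fermat.Agent.Jan.HeckeNorm
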