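import Fermat.Agent.Jan.HeckeInputs
import Fermat.Agent.FunField.Alg

set_option autoImplicit false

/-!
# `JAlg` holds (helper62's algebraicity of `j(q^d)`), unconditional corollaries
-/

noncomputable section

open AlgebraicCurve ModularCurve

namespace Fermat.Agent.Jan.HeckeInputs

/-- Every `j(q^d)` is algebraic over `ℚ(j)`. -/
theorem jAlg : JAlg := fun d _ => Fermat.Agent.FunField.isAlgebraic_qExpand_jq d

end Fermat.Agent.Jan.HeckeInputs
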