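import Mathlib
import Fermat.Prelude.Def_ModularCurve_HeckeModule
import Fermat.Prelude.Thm_ModularCurve_coeffMap_qExpand

set_option autoImplicit false

noncomputable section

/-!
Galois equivariance of the Hecke operators on `JZero N`.
-/

namespace Fermat.Agent.Jan.GaloisHecke

open AlgebraicCurve AlgebraicCurve.SemilinearAut
open scoped Pointwise

section Abstract

variable {K F F' : Type*} [Field K] [Field F] [Field F'] [Algebra K F] [Algebra K F']
variable (φ : F →ₐ[K] F') (hφ : φ.toRingHom.IsIntegral)
variable {g : SemilinearAut K F} {g' : SemilinearAut K F'}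

theorem mem_restrictAlong_iff (w : Place K F') (x : F) :
    x ∈ (w.restrictAlong φ hφ).toValuationSubring ↔ φ x ∈ w.toValuationSubring :=
  Iff.rfl

theorem mem_smul_place_iff (g : SemilinearAut K F) (v : Place K F) (x : F) :
    x ∈ (g • v).toValuationSubring ↔ g⁻¹ • x ∈ v.toValuationSubring := by
  rw [SemilinearAut.smul_toValuationSubring]
  exact ValuationSubring.mem_pointwise_smul_iff_inv_smul_mem

theorem restrictAlong_smul (h : IntertwinesAlong (φ : F →+* F') g g') (w : Place K F') :
    (g' • w).restrictAlong φ hφ = g • (w.restrictAlong φ hφ) := by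
  ext x
  rw [mem_restrictAlong_iff, mem_smul_place_iff, mem_smul_place_iff, mem_restrictAlong_iff]
  have := h.inv x
  rw [show g'⁻¹ • (φ x) = φ (g⁻¹ • x) from this]

theorem ord_smul' (g : SemilinearAut K F) (v : Place K F) (x : F) :
    (g • v).ord x = v.ord (g⁻¹ • x) := by
  have := SemilinearAut.ord_smul g v (g⁻¹ • x)
  rwa [smul_inv_smul] at this

theorem ramificationIndexAlong_smul (h : IntertwinesAlong (φ : F →+* F') g g') (w : Place K F') :
    Place.ramificationIndexAlong φ (g' • w) = Place.ramificationIndexAlong φ w := by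
  unfold Place.ramificationIndexAlong
  simp only [Place.ramificationIndex]
  congr 1
  ext n
  constructor
  · rintro ⟨hn, f, hf, he⟩
    refine ⟨hn, g⁻¹ • f, by simpa using hf, ?_⟩
    rw [ord_smul'] at he
    have := h.inv f
    rw [← he]
    exact congrArg _ this.symm
  · rintro ⟨hn, f, hf, he⟩
    refine ⟨hn, g • f, by simpa using hf, ?_⟩
    rw [ord_smul', ← he]
    congr 1
    have := h f
    have h2 : g'⁻¹ • ((φ : F →+* F') (g • f)) = (φ : F →+* F') f := by
      rw [← this, inv_smul_smul]
    exact h2

/-- transport of the restricted valuation ring -/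
def restrictEquiv (h : IntertwinesAlong (φ : F →+* F') g g') (w : Place K F') :
    (w.restrictAlong φ hφ).toValuationSubring ≃+*
      ((g' • w).restrictAlong φ hφ).toValuationSubring :=
  (smulValuationSubringEquiv g (w.restrictAlong φ hφ).toValuationSubring).trans
    (RingEquiv.subringCongr (by rw [restrictAlong_smul φ hφ h w]; rfl))

theorem coe_restrictEquiv (h : IntertwinesAlong (φ : F →+* F') g g') (w : Place K F')
    (x : (w.restrictAlong φ hφ).toValuationSubring) :
    (restrictEquiv φ hφ h w x : F) = g • (x : F) := rfl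

theorem inertiaDegAlong_smul (h : IntertwinesAlong (φ : F →+* F') g g') (w : Place K F') :
    Place.inertiaDegAlong φ hφ (g' • w) = Place.inertiaDegAlong φ hφ w := by
  let _ := algebraAlong φ
  have _ := isScalarTower_along φ
  have _ := isIntegral_along φ hφ
  obtain ⟨e, he⟩ : ∃ e : (w.restrict F).toValuationSubring ≃+*
      ((g' • w).restrict F).toValuationSubring, ∀ x, (e x : F) = g • (x : F) :=
    ⟨restrictEquiv φ hφ h w, fun _ => rfl⟩
  unfold Place.inertiaDegAlong
  simp only [Place.inertiaDeg]
  symm
  refine Algebra.finrank_eq_of_equiv_equiv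
    (IsLocalRing.ResidueField.mapEquiv e) (smulResidueRingEquiv g' w) ?_
  refine RingHom.ext fun x => ?_
  obtain ⟨a, rfl⟩ := IsLocalRing.residue_surjective x
  show Place.restrictResidueMap F (g' • w) (IsLocalRing.ResidueField.mapEquiv e
      (IsLocalRing.residue _ a))
    = smulResidueRingEquiv g' w (Place.restrictResidueMap F w (IsLocalRing.residue _ a))
  rw [IsLocalRing.ResidueField.mapEquiv_apply, IsLocalRing.ResidueField.map_residue]
  rw [Place.restrictResidueMap_residue, Place.restrictResidueMap_residue]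
  show _ = IsLocalRing.ResidueField.mapEquiv _ (IsLocalRing.residue _ _)
  rw [IsLocalRing.ResidueField.mapEquiv_apply, IsLocalRing.ResidueField.map_residue]
  refine congrArg _ (Subtype.ext ?_)
  show φ (e a : F) = g' • φ (a : F)
  rw [he]
  exact (h (a : F)).symm

theorem pullbackAlong_smul [HasPrincipalDivisors K F'] (h : IntertwinesAlong (φ : F →+* F') g g')
    (D : Divisor K F) :
    Divisor.pullbackAlong φ hφ (g • D) = g' • Divisor.pullbackAlong φ hφ D := by
  refine Finsupp.ext fun w => ?_
  rw [Divisor.pullbackAlong_apply, divisor_smul_apply, divisor_smul_apply,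
    Divisor.pullbackAlong_apply]
  have h1 := ramificationIndexAlong_smul φ h.inv w
  have h2 := restrictAlong_smul φ hφ h.inv w
  rw [h1, h2]

theorem pushforwardAlong_smul (h : IntertwinesAlong (φ : F →+* F') g g')
    (D : Divisor K F') :
    Divisor.pushforwardAlong φ hφ (g' • D) = g • Divisor.pushforwardAlong φ hφ D := by
  induction D using Finsupp.induction with
  | zero => simp
  | single_add w n D _ _ ih =>
    rw [smul_add, map_add, map_add, ih, smul_add, smul_single, Divisor.pushforwardAlong_single,
      Divisor.pushforwardAlong_single, smul_single, restrictAlong_smul φ hφ h,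
      inertiaDegAlong_smul φ hφ h]

variable (ψ : F →ₐ[K] F') (hψ : ψ.toRingHom.IsIntegral)

theorem correspondence_smul [HasPrincipalDivisors K F']
    (h : IntertwinesAlong (φ : F →+* F') g g') (h' : IntertwinesAlong (ψ : F →+* F') g g')
    (D : Divisor K F) :
    Divisor.correspondence φ ψ hφ hψ (g • D) = g • Divisor.correspondence φ ψ hφ hψ D := by
  rw [Divisor.correspondence_apply, Divisor.correspondence_apply, pullbackAlong_smul φ hφ h,
    pushforwardAlong_smul ψ hψ h']

theorem pic0_correspondence_smul [HasPrincipalDivisors K F']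
    (hFI : FundamentalIdentityAlong K φ hφ)
    (hfin : FiniteAlong K ψ) (hN : NormFormulaAlong K ψ hfin)
    (h : IntertwinesAlong (φ : F →+* F') g g') (h' : IntertwinesAlong (ψ : F →+* F') g g')
    (x : Pic0 K F) :
    Pic0.correspondence φ ψ hφ hψ hFI hfin hN (g • x) =
      g • Pic0.correspondence φ ψ hφ hψ hFI hfin hN x := by
  obtain ⟨D, rfl⟩ := Pic0.mk_surjective x
  rw [Pic0.correspondence_mk, pic0_smul_mk, pic0_smul_mk, Pic0.correspondence_mk]
  refine congrArg Pic0.mk (Subtype.ext ?_)
  rw [Pic0.coe_degZeroCorrespondence, coe_degZeroSMulHom, coe_degZeroSMulHom,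
    Pic0.coe_degZeroCorrespondence]
  exact correspondence_smul φ hφ ψ hψ h h' _

end Abstract

section Modular

open ModularCurve

variable {L : Type*} [Field L] [Algebra ℚ L] (N ℓ : ℕ) [NeZero N] [NeZero ℓ]

theorem intertwines_alpha (σ : L ≃ₐ[ℚ] L) :
    IntertwinesAlong (heckeAlphaBar L N ℓ : _ →+* _)
      (arithmeticGalois (modularFunctionFieldFull N) σ)
      (arithmeticGalois (modularFunctionFieldFull (N * ℓ)) σ) := by
  intro x
  refine Subtype.ext ?_
  rw [coe_arithmeticGalois_smul]
  show coeffMap (σ : L →+* L) (heckeAlphaBar L N ℓ x : LaurentSeries L) =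
    (heckeAlphaBar L N ℓ (arithmeticGalois (modularFunctionFieldFull N) σ • x) : LaurentSeries L)
  rw [coe_heckeAlphaBar, coe_heckeAlphaBar, coe_arithmeticGalois_smul]

omit [NeZero N] in
theorem intertwines_beta (σ : L ≃ₐ[ℚ] L) :
    IntertwinesAlong (heckeBetaBar L N ℓ : _ →+* _)
      (arithmeticGalois (modularFunctionFieldFull N) σ)
      (arithmeticGalois (modularFunctionFieldFull (N * ℓ)) σ) := by
  intro x
  refine Subtype.ext ?_
  rw [coe_arithmeticGalois_smul]
  show coeffMap (σ : L →+* L) (qExpand L ℓ (x : LaurentSeries L)) =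
    qExpand L ℓ (coeffMap (σ : L →+* L) (x : LaurentSeries L))
  exact coeffMap_qExpand _ ℓ _

theorem heckeOperatorAlong_smul (σ : L ≃ₐ[ℚ] L)
    (x : Pic0 L (laurentBaseChange L (modularFunctionFieldFull N))) :
    heckeOperatorAlong L N ℓ (σ • x) = σ • heckeOperatorAlong L N ℓ x := by
  by_cases h : HeckeInputsAlong L N ℓ
  · obtain ⟨hα, hβ, hP, hfin, hFI, hN⟩ := h
    rw [heckeOperatorAlong_eq hα hβ hFI hfin hN]
    exact pic0_correspondence_smul _ hβ _ hα hFI hfin hN (intertwines_beta N ℓ σ)
      (intertwines_alpha N ℓ σ) x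
  · rw [heckeOperatorAlong_of_not h]
    simp

theorem heckeOperatorBar_smul (ℓ : Nat.Primes)
    (σ : AlgebraicClosure ℚ ≃ₐ[ℚ] AlgebraicClosure ℚ) (x : JZero N) :
    heckeOperatorBar N ℓ (σ • x) = σ • heckeOperatorBar N ℓ x := by
  have : NeZero (ℓ : ℕ) := ⟨ℓ.2.ne_zero⟩
  exact heckeOperatorAlong_smul N (ℓ : ℕ) σ x

/-- The Hecke action on `JZero N` commutes with the Galois action. -/
theorem smulCommClass_heckeModuleBar :
    letI := heckeModuleBar N
    SMulCommClass (AlgebraicClosure ℚ ≃ₐ[ℚ] AlgebraicClosure ℚ) HeckeAlg (JZero N) := by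
  let _ := heckeModuleBar N
  refine ⟨fun σ t x => ?_⟩
  induction t using MvPolynomial.induction_on generalizing x with
  | C a =>
    rw [heckeModuleBar_C_smul, heckeModuleBar_C_smul]
    exact smul_zsmul _ a x
  | add p q hp hq => rw [add_smul, add_smul, smul_add, hp, hq]
  | mul_X p ℓ hp =>
    rw [mul_smul, mul_smul, hp]
    congr 1
    change σ • (heckeGen ℓ • x) = heckeGen ℓ • (σ • x)
    by_cases h : HeckeOperatorsCommuteBar N
    · rw [heckeModuleBar_heckeGen_smul h, heckeModuleBar_heckeGen_smul h,
        heckeOperatorBar_smul]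
    · rw [heckeModuleBar_heckeGen_smul_of_not h, heckeModuleBar_heckeGen_smul_of_not h]
      exact smul_zero (A := JZero N) σ

end Modular

end Fermat.Agent.Jan.GaloisHecke
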